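import Fermat.Agent.GAL.Mod.ES
import Fermat.Agent.GAL.Mod.Quot
import Fermat.Agent.ORD.P2.Defs

/-!
# DSC : descent to a discretely valued field.  Definitions and basic API (no sorry).

`H ≤ G_ℚ` a subgroup (in the applications `H ≤ I_A`, of finite index in the inertia group).
* `EH H`    : the field of constants `E = ℚ̄^H`.
* `FH H M`  : `F_E = (FL ℚ̄ M)^H`, the elements of the function field fixed by `H` (coefficientwise action).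
* `IsUnif A H π` : `π` is a uniformiser of `E` for the valuation `A`.
* `H1 A ζ`  : `{τ ∈ I_A : τ ζ = ζ}`.
* `JZ M`    : `ℤ[j(q^d) : d ∣ M] ⊆ ℤ((q))`;  `PH H M` : the `E`-span of `JZ M` in `ℚ̄((q))`.
-/

set_option autoImplicit false
noncomputable section

namespace Fermat.Agent.DSC

open ModularCurve HahnSeries Fermat.Agent.GR Fermat.Agent.GAL Fermat.Agent.ORD.P2

/-- the field of constants `E = ℚ̄^H`. -/
abbrev EH (H : Subgroup GQ) : IntermediateField ℚ Qb := IntermediateField.fixedField H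

theorem mem_EH {H : Subgroup GQ} {c : Qb} : c ∈ EH H ↔ ∀ τ ∈ H, τ c = c :=
  IntermediateField.mem_fixedField_iff H c

/-- `F_E = (FL ℚ̄ M)^H`. -/
def FH (H : Subgroup GQ) (M : ℕ) : Subfield (LaurentSeries Qb) where
  carrier := {x | x ∈ FL Qb M ∧ ∀ τ ∈ H, galS τ x = x}
  mul_mem' := fun ha hb => ⟨mul_mem ha.1 hb.1, fun τ hτ => by rw [map_mul, ha.2 τ hτ, hb.2 τ hτ]⟩
  one_mem' := ⟨one_mem _, fun τ _ => map_one _⟩
  add_mem' := fun ha hb => ⟨add_mem ha.1 hb.1, fun τ hτ => by rw [map_add, ha.2 τ hτ, hb.2 τ hτ]⟩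
  zero_mem' := ⟨zero_mem _, fun τ _ => map_zero _⟩
  neg_mem' := fun ha => ⟨neg_mem ha.1, fun τ hτ => by rw [map_neg, ha.2 τ hτ]⟩
  inv_mem' := fun _ ha => ⟨inv_mem ha.1, fun τ hτ => by rw [map_inv₀, ha.2 τ hτ]⟩

theorem mem_FH {H : Subgroup GQ} {M : ℕ} {x : LaurentSeries Qb} :
    x ∈ FH H M ↔ x ∈ FL Qb M ∧ ∀ τ ∈ H, galS τ x = x := Iff.rfl

theorem FH.mem_FL {H : Subgroup GQ} {M : ℕ} {x : LaurentSeries Qb} (h : x ∈ FH H M) :
    x ∈ FL Qb M := h.1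

theorem galS_C (τ : GQ) (c : Qb) : galS τ (HahnSeries.C c) = HahnSeries.C (τ c) :=
  coeffMap_C (τ : Qb →+* Qb) c

theorem galS_coeff (τ : GQ) (x : LaurentSeries Qb) (k : ℤ) : (galS τ x).coeff k = τ (x.coeff k) :=
  coeffMap_coeff _ _ _

theorem C_mem_FH {H : Subgroup GQ} (M : ℕ) {c : Qb} (hc : c ∈ EH H) :
    (HahnSeries.C c : LaurentSeries Qb) ∈ FH H M :=
  ⟨C_mem_FL M c, fun τ hτ => by rw [galS_C, mem_EH.mp hc τ hτ]⟩

theorem coeff_mem_EH {H : Subgroup GQ} {x : LaurentSeries Qb} (hx : ∀ τ ∈ H, galS τ x = x) (k : ℤ) :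
    x.coeff k ∈ EH H :=
  mem_EH.mpr fun τ hτ => by rw [← galS_coeff, hx τ hτ]

theorem FH_mono {H H' : Subgroup GQ} (h : H ≤ H') (M : ℕ) : FH H' M ≤ FH H M :=
  fun _ hx => ⟨hx.1, fun τ hτ => hx.2 τ (h hτ)⟩

/-- `π` is a uniformiser of `E = ℚ̄^H` at `A`. -/
structure IsUnif (A : ValuationSubring Qb) (H : Subgroup GQ) (π : Qb) : Prop where
  fix : π ∈ EH H
  ne_zero : π ≠ 0
  mem : π ∈ A.nonunits
  gen : ∀ c ∈ EH H, c ≠ 0 → ∃ j : ℤ, A.valuation c = A.valuation π ^ j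

/-- `H₁ = {τ ∈ I_A : τ ζ = ζ}`. -/
def H1 (A : ValuationSubring Qb) (ζ : Qbˣ) : Subgroup GQ :=
  A.inertiaSubgroupIn ℚ ⊓ MulAction.stabilizer GQ (ζ : Qb)

theorem mem_H1 {A : ValuationSubring Qb} {ζ : Qbˣ} {τ : GQ} :
    τ ∈ H1 A ζ ↔ τ ∈ A.inertiaSubgroupIn ℚ ∧ τ (ζ : Qb) = ζ := Iff.rfl

theorem H1_le (A : ValuationSubring Qb) (ζ : Qbˣ) : H1 A ζ ≤ A.inertiaSubgroupIn ℚ := inf_le_left

/-- `ℤ[j(q^d) : d ∣ M] ⊆ ℤ((q))`. -/
def JZ (M : ℕ) : Subring (LaurentSeries ℤ) :=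
  Subring.closure {J | ∃ (d : ℕ) (_ : NeZero d), d ∣ M ∧ J = qExpand ℤ d (jqModC ℤ)}

/-- the `E`-span of `ℤ[j(q^d) : d ∣ M]` in `ℚ̄((q))`, `E = ℚ̄^H` (`H = ⊥`: the `ℚ̄`-span). -/
def PH (H : Subgroup GQ) (M : ℕ) : Submodule (EH H) (LaurentSeries Qb) :=
  Submodule.span (EH H) (intS Qb '' (JZ M : Set (LaurentSeries ℤ)))

end Fermat.Agent.DSC
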