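import Fermat.Agent.DSC.Defs

/-!
# DSC-D1 : the inertia field has the full residue field (Teichmüller representatives)
-/

set_option autoImplicit false
noncomputable section

namespace Fermat.Agent.DSC

open ModularCurve HahnSeries Fermat.Agent.GR Fermat.Agent.GAL Fermat.Agent.ORD.P2

variable {M : ℕ} {H : Subgroup GQ} {A : ValuationSubring Qb}

/-! ## DSC-D1 : constants (Teichmüller) -/

theorem Teich_natCast_residue_eq_zero {p : ℕ} (hA : A.LiesOverPrime p) : ((p : ℕ) : kk A) = 0 := by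
  have h1 : CRed A ((p : ℕ) : Qb) 0 := cRed_zero_iff.mpr hA
  exact (CRed.natCast (A := A) p).unique h1

theorem Teich_charP {p : ℕ} (hp : p.Prime) (hA : A.LiesOverPrime p) : CharP (kk A) p := by
  have h := CharP.ringChar_of_prime_eq_zero hp (Teich_natCast_residue_eq_zero hA)
  exact h ▸ ringChar.charP (kk A)

/-- a root of unity lies in `A`. -/
theorem Teich_mem_of_pow_eq_one {N : ℕ} (hN : N ≠ 0) {ξ : Qb} (h : ξ ^ N = 1) : ξ ∈ A := by
  rw [← A.valuation_le_one_iff]
  by_contra hlt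
  rw [not_le] at hlt
  have h1 := one_lt_pow₀ hlt hN
  rw [← map_pow, h, map_one] at h1
  exact lt_irrefl _ h1

/-- every element of the residue field is algebraic over `𝔽_p`: it is a root of a polynomial with integer
coefficients which is nonzero mod `p`. -/
theorem Teich_exists_poly {p : ℕ} (hp : p.Prime) (cb : kk A) :
    ∃ Q : Polynomial ℤ, Q.map (Int.castRingHom (ZMod p)) ≠ 0 ∧
      Polynomial.eval₂ (Int.castRingHom (kk A)) cb Q = 0 := by
  obtain ⟨a, rfl⟩ := IsLocalRing.residue_surjective (R := A) cb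
  have hQb : Algebra.IsAlgebraic ℚ Qb := AlgebraicClosure.isAlgebraic ℚ
  have halg : IsAlgebraic ℤ (a : Qb) :=
    (IsFractionRing.isAlgebraic_iff ℤ ℚ Qb).mpr (Algebra.IsAlgebraic.isAlgebraic (a : Qb))
  obtain ⟨P, hP0, hPa⟩ := halg
  refine ⟨P.primPart, ?_, ?_⟩
  · intro h0
    have hdvd : Polynomial.C (p : ℤ) ∣ P.primPart := by
      rw [Polynomial.C_dvd_iff_dvd_coeff]
      intro i
      have h1 := congrArg (fun q => Polynomial.coeff q i) h0
      simp only [Polynomial.coeff_map, Polynomial.coeff_zero, eq_intCast] at h1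
      exact (ZMod.intCast_zmod_eq_zero_iff_dvd _ p).mp h1
    have hu := P.isPrimitive_primPart _ hdvd
    rw [Int.isUnit_iff] at hu
    have := hp.two_le
    omega
  · have hc0 : (P.content : Qb) ≠ 0 := by
      rw [Int.cast_ne_zero]
      exact fun h => hP0 (Polynomial.content_eq_zero_iff.mp h)
    have h1 : Polynomial.aeval (a : Qb) P.primPart = 0 := by
      have h2 := hPa
      rw [P.eq_C_content_mul_primPart, map_mul, Polynomial.aeval_C] at h2
      rcases mul_eq_zero.mp h2 with h3 | h3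
      · exact absurd (by simpa using h3) hc0
      · exact h3
    have h2 : Polynomial.eval₂ (Int.castRingHom A) a P.primPart = 0 := by
      apply Subtype.ext
      have h3 := Polynomial.hom_eval₂ P.primPart (Int.castRingHom A) A.subtype a
      have h4 : A.subtype.comp (Int.castRingHom A) = Int.castRingHom Qb := RingHom.ext_int _ _
      rw [h4] at h3
      have h5 : Polynomial.eval₂ (Int.castRingHom Qb) (a : Qb) P.primPart = 0 := by
        rw [← h1, Polynomial.aeval_def]
        rfl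
      exact h3.trans h5
    have h3 := Polynomial.hom_eval₂ P.primPart (Int.castRingHom A) (IsLocalRing.residue A) a
    have h4 : (IsLocalRing.residue A).comp (Int.castRingHom A) = Int.castRingHom (kk A) :=
      RingHom.ext_int _ _
    rw [h4, h2, map_zero] at h3
    exact h3.symm

/-- every nonzero element of the residue field is a root of unity of order prime to `p`
(`ā` is a root of the reduction of a primitive integral polynomial of `a`, so it is algebraic over `𝔽_p`, so it lies in a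
finite field). -/
theorem exists_pow_eq_one_residue {p : ℕ} (hp : p.Prime) (hA : A.LiesOverPrime p) {cb : kk A}
    (hcb : cb ≠ 0) : ∃ N : ℕ, ¬ p ∣ N ∧ cb ^ N = 1 := by
  have hfp : Fact p.Prime := ⟨hp⟩
  have hchar : CharP (kk A) p := Teich_charP hp hA
  let _ : Algebra (ZMod p) (kk A) := ZMod.algebra (kk A) p
  obtain ⟨Q, hQ0, hQ⟩ := Teich_exists_poly (A := A) hp cb
  have halg : IsAlgebraic (ZMod p) cb := by
    refine ⟨Q.map (Int.castRingHom (ZMod p)), hQ0, ?_⟩
    rw [Polynomial.aeval_def, Polynomial.eval₂_map]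
    have h4 : (algebraMap (ZMod p) (kk A)).comp (Int.castRingHom (ZMod p)) =
        Int.castRingHom (kk A) := RingHom.ext_int _ _
    rw [h4]
    exact hQ
  set E := IntermediateField.adjoin (ZMod p) {cb} with hE
  have hfd : FiniteDimensional (ZMod p) E :=
    IntermediateField.adjoin.finiteDimensional halg.isIntegral
  have hfin : Finite E := Module.finite_of_finite (ZMod p)
  have hft : Fintype E := Fintype.ofFinite E
  have hcE : CharP E p := charP_of_injective_algebraMap (algebraMap (ZMod p) E).injective p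
  set x : E := ⟨cb, IntermediateField.mem_adjoin_simple_self (ZMod p) cb⟩ with hx
  have hx0 : x ≠ 0 := fun h => hcb (congrArg Subtype.val h)
  obtain ⟨n, -, hcard⟩ := FiniteField.card E p
  refine ⟨Fintype.card E - 1, ?_, ?_⟩
  · rw [hcard]
    intro hdvd
    have h1 : p ∣ p ^ (n : ℕ) := dvd_pow_self p n.ne_zero
    have h2 : 1 ≤ p ^ (n : ℕ) := Nat.one_le_pow _ _ hp.pos
    have h3 : p ∣ 1 := by
      have := (Nat.dvd_sub h1 hdvd)
      rwa [Nat.sub_sub_self h2] at this
    exact hp.one_lt.ne' (Nat.dvd_one.mp h3)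
  · have h1 := FiniteField.pow_card_sub_one_eq_one x hx0
    exact congrArg Subtype.val h1

/-- `N`-th roots of unity (`p ∤ N`) which are congruent modulo `𝔪_A` are equal
(`∏_{ξ ≠ 1} (1 - ξ) = N` is a unit). -/
theorem eq_of_sub_mem_nonunits {p : ℕ} (hp : p.Prime) (hA : A.LiesOverPrime p) {N : ℕ}
    (hN : ¬ p ∣ N) {ξ ξ' : Qb} (h : ξ ^ N = 1) (h' : ξ' ^ N = 1) (hm : ξ - ξ' ∈ A.nonunits) :
    ξ = ξ' := by
  have hchar : CharP (kk A) p := Teich_charP hp hA
  have hN0 : N ≠ 0 := fun h0 => hN (h0 ▸ dvd_zero p)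
  by_contra hne
  have hξ : ξ ∈ A := Teich_mem_of_pow_eq_one hN0 h
  have hξ' : ξ' ∈ A := Teich_mem_of_pow_eq_one hN0 h'
  set xb : kk A := IsLocalRing.residue A ⟨ξ, hξ⟩ with hxb
  have h1 : CRed A ξ xb := ⟨hξ, rfl⟩
  have h2 : CRed A ξ' xb := by
    have h3 : CRed A (ξ - (ξ - ξ')) (xb - 0) := h1.sub (cRed_zero_iff.mpr hm)
    rwa [sub_sub_cancel, sub_zero] at h3
  -- the geometric sum vanishes
  have hS : ∑ i ∈ Finset.range N, ξ ^ i * ξ' ^ (N - 1 - i) = 0 := by
    have h3 := geom_sum₂_mul ξ ξ' N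
    rw [h, h', sub_self] at h3
    exact (mul_eq_zero.mp h3).resolve_right (sub_ne_zero.mpr hne)
  have hsum : ∀ s : Finset ℕ, CRed A (∑ i ∈ s, ξ ^ i * ξ' ^ (N - 1 - i))
      (∑ i ∈ s, xb ^ i * xb ^ (N - 1 - i)) := by
    intro s
    classical
    induction s using Finset.induction_on with
    | empty => simpa using CRed.zero (A := A)
    | insert a s ha ih =>
      rw [Finset.sum_insert ha, Finset.sum_insert ha]
      exact ((h1.pow _).mul (h2.pow _)).add ih
  have h4 := hsum (Finset.range N)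
  rw [hS] at h4
  have h5 : ∑ i ∈ Finset.range N, xb ^ i * xb ^ (N - 1 - i) = (N : kk A) * xb ^ (N - 1) := by
    rw [Finset.sum_congr rfl (fun i hi => by
      rw [← _root_.pow_add, show i + (N - 1 - i) = N - 1 by
        have := Finset.mem_range.mp hi
        omega] : ∀ i ∈ Finset.range N, xb ^ i * xb ^ (N - 1 - i) = xb ^ (N - 1))]
    rw [Finset.sum_const, Finset.card_range, nsmul_eq_mul]
  have h6 : (N : kk A) * xb ^ (N - 1) = 0 := by
    rw [← h5]
    exact h4.unique CRed.zero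
  have hxN : xb ^ N = 1 := ((h1.pow N).unique (by rw [h]; exact CRed.one))
  have hx0 : xb ≠ 0 := by
    intro h0
    rw [h0, zero_pow hN0] at hxN
    exact zero_ne_one hxN
  rcases mul_eq_zero.mp h6 with h7 | h7
  · exact hN ((CharP.cast_eq_zero_iff (kk A) p N).mp h7)
  · exact hx0 (pow_eq_zero_iff (n := N - 1) (by
      intro h8
      rw [h8, pow_zero] at h7
      exact one_ne_zero h7) |>.mp h7)

/-- lifting roots of unity (`X^N - 1 = ∏ (X - ξ)` over `ℚ̄`, reduce). -/
theorem exists_root_lift {N : ℕ} (hN : N ≠ 0) {cb : kk A} (h : cb ^ N = 1) :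
    ∃ ξ : Qb, ξ ^ N = 1 ∧ CRed A ξ cb := by
  have hNpos : 0 < N := Nat.pos_of_ne_zero hN
  have hNZ : NeZero (N : Qb) := ⟨Nat.cast_ne_zero.mpr hN⟩
  have hNZ' : NeZero N := ⟨hN⟩
  obtain ⟨ζ, hζ⟩ := HasEnoughRootsOfUnity.exists_primitiveRoot Qb N
  obtain ⟨c, rfl⟩ := IsLocalRing.residue_surjective (R := A) cb
  have hc : CRed A (c : Qb) (IsLocalRing.residue A c) := CRed.mk c
  have hprod : (c : Qb) ^ N - 1 = ∏ ξ ∈ Polynomial.nthRootsFinset N (1 : Qb), ((c : Qb) - ξ) := by
    have h1 := congrArg (Polynomial.eval (c : Qb)) (Polynomial.X_pow_sub_one_eq_prod hNpos hζ)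
    simpa [Polynomial.eval_prod] using h1
  have hlt : A.valuation ((c : Qb) ^ N - 1) < 1 := by
    have h1 : CRed A ((c : Qb) ^ N - 1) 0 := by
      have h2 := (hc.pow N).sub (CRed.one (A := A))
      rwa [h, sub_self] at h2
    exact (ValuationSubring.mem_nonunits_iff A).mp (cRed_zero_iff.mp h1)
  have hex : ∃ ξ ∈ Polynomial.nthRootsFinset N (1 : Qb), A.valuation ((c : Qb) - ξ) < 1 := by
    by_contra hno
    push Not at hno
    have h1 : ∀ ξ ∈ Polynomial.nthRootsFinset N (1 : Qb), A.valuation ((c : Qb) - ξ) = 1 := by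
      intro ξ hξ
      refine le_antisymm ?_ (hno ξ hξ)
      rw [A.valuation_le_one_iff]
      exact A.sub_mem c.2 (Teich_mem_of_pow_eq_one hN
        ((Polynomial.mem_nthRootsFinset hNpos 1).mp hξ))
    rw [hprod, map_prod, Finset.prod_eq_one h1] at hlt
    exact lt_irrefl _ hlt
  obtain ⟨ξ, hξ, hv⟩ := hex
  refine ⟨ξ, (Polynomial.mem_nthRootsFinset hNpos 1).mp hξ, ?_⟩
  have h1 : CRed A ((c : Qb) - ξ) 0 :=
    cRed_zero_iff.mpr ((ValuationSubring.mem_nonunits_iff A).mpr hv)
  have h2 := hc.sub h1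
  rwa [sub_sub_cancel, sub_zero] at h2

/-- inertia does not change reductions of constants. -/
theorem Teich_cRed_map_inertia {σ : GQ} (hσ : σ ∈ A.inertiaSubgroupIn ℚ) {c : Qb} {cb : kk A}
    (h : CRed A c cb) : CRed A (σ c) cb := by
  obtain ⟨hc, rfl⟩ := h
  obtain ⟨g, hg, hgσ⟩ := hσ
  have hd : σ ∈ A.decompositionSubgroup ℚ := hgσ ▸ g.2
  have hgd : (⟨σ, hd⟩ : A.decompositionSubgroup ℚ) = g := Subtype.ext hgσ.symm
  have h1 := residue_decompHom σ hd ⟨c, hc⟩
  rw [hgd] at h1
  have h2 : MulSemiringAction.toRingAut (A.decompositionSubgroup ℚ) (IsLocalRing.ResidueField A) g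
      = 1 := hg
  have h3 := congrArg (fun f : RingAut (IsLocalRing.ResidueField A) =>
    f (IsLocalRing.residue A ⟨c, hc⟩)) h2
  have h4 : g • IsLocalRing.residue A ⟨c, hc⟩ = IsLocalRing.residue A ⟨c, hc⟩ := h3
  rw [h4] at h1
  exact ⟨(decompHom σ hd ⟨c, hc⟩).2, h1⟩

/-- **the inertia field has the full residue field.** -/
theorem exists_lift_EH_inertia {p : ℕ} (hp : p.Prime) (hA : A.LiesOverPrime p) (cb : kk A) :
    ∃ c ∈ EH (A.inertiaSubgroupIn ℚ), CRed A c cb := by
  by_cases hcb : cb = 0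
  · exact ⟨0, zero_mem _, hcb ▸ CRed.zero⟩
  obtain ⟨N, hN, hcN⟩ := exists_pow_eq_one_residue hp hA hcb
  have hN0 : N ≠ 0 := fun h0 => hN (h0 ▸ dvd_zero p)
  obtain ⟨ξ, hξ, hred⟩ := exists_root_lift hN0 hcN
  refine ⟨ξ, mem_EH.mpr fun τ hτ => ?_, hred⟩
  refine eq_of_sub_mem_nonunits hp hA hN (by rw [← map_pow, hξ, map_one]) hξ ?_
  have h1 := (Teich_cRed_map_inertia hτ hred).sub hred
  rw [sub_self] at h1
  exact cRed_zero_iff.mp h1

theorem exists_lift_EH {p : ℕ} (hp : p.Prime) (hA : A.LiesOverPrime p)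
    (hH : H ≤ A.inertiaSubgroupIn ℚ) (cb : kk A) : ∃ c ∈ EH H, CRed A c cb := by
  obtain ⟨c, hc, h⟩ := exists_lift_EH_inertia hp hA cb
  exact ⟨c, mem_EH.mpr fun τ hτ => mem_EH.mp hc τ (hH hτ), h⟩

end Fermat.Agent.DSC
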