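import Fermat.Agent.DSC.GaussVal

/-!
# DSC-C2 : discreteness of the Gauss valuation of `F_E` and of the depth
-/

set_option autoImplicit false
noncomputable section

namespace Fermat.Agent.DSC

open ModularCurve HahnSeries Fermat.Agent.GR Fermat.Agent.GAL Fermat.Agent.ORD.P2

variable {M : ℕ} {H : Subgroup GQ} {A : ValuationSubring Qb}

/-! ## auxiliary lemmas -/

theorem discrete_val_pos {π : Qb} (hπ : IsUnif A H π) : 0 < A.valuation π :=
  zero_lt_iff.mpr ((map_ne_zero _).mpr hπ.ne_zero)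

theorem discrete_val_lt_one {π : Qb} (hπ : IsUnif A H π) : A.valuation π < 1 :=
  A.mem_nonunits_iff.mp hπ.mem

theorem discrete_pow_mem {π : Qb} (hπ : IsUnif A H π) (n : ℕ) : π ^ n ∈ A :=
  pow_mem (A.nonunits_subset hπ.mem) n

theorem discrete_zpow_mem_EH {π : Qb} (hπ : IsUnif A H π) (j : ℤ) : π ^ j ∈ EH H :=
  zpow_mem hπ.fix j

/-- an element of valuation one has a non-zero reduction. -/
theorem discrete_cRed_of_val_eq_one {c : Qb} (h : A.valuation c = 1) :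
    ∃ ub : kk A, ub ≠ 0 ∧ CRed A c ub := by
  have hc : c ∈ A := (A.valuation_le_one_iff c).mp h.le
  refine ⟨IsLocalRing.residue A ⟨c, hc⟩, ?_, hc, rfl⟩
  intro h0
  have h1 : CRed A c 0 := ⟨hc, h0⟩
  have h2 := A.mem_nonunits_iff.mp (cRed_zero_iff.mp h1)
  exact absurd h h2.ne

/-- `|π| ^ j < 1` forces `1 ≤ j`. -/
theorem discrete_one_le_of_zpow_lt_one {π : Qb} (hπ : IsUnif A H π) {j : ℤ}
    (h : A.valuation π ^ j < 1) : 1 ≤ j := by
  by_contra hj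
  obtain ⟨n, hn⟩ : ∃ n : ℕ, j = - (n : ℤ) := ⟨(-j).toNat, by omega⟩
  rw [hn, zpow_neg, zpow_natCast] at h
  have h1 : A.valuation π ^ n ≤ 1 := pow_le_one₀ zero_le (discrete_val_lt_one hπ).le
  have h2 : 0 < A.valuation π ^ n := pow_pos (discrete_val_pos hπ) n
  exact absurd ((one_le_inv₀ h2).mpr h1) (not_le.mpr h)

/-! ## DSC-C2 : discreteness -/

/-- a constant of `E` is `π ^ j` times a unit of `A` (which lies in `E`). -/
theorem IsUnif.exists_unit {π : Qb} (hπ : IsUnif A H π) {c : Qb} (hc : c ∈ EH H) (hc0 : c ≠ 0) :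
    ∃ (j : ℤ) (ub : kk A), ub ≠ 0 ∧ CRed A (c / π ^ j) ub := by
  obtain ⟨j, hj⟩ := hπ.gen c hc hc0
  refine ⟨j, discrete_cRed_of_val_eq_one ?_⟩
  rw [map_div₀, map_zpow₀, hj]
  exact div_self (zpow_ne_zero _ (discrete_val_pos hπ).ne')

/-- a constant of `E ∩ 𝔪_A` is divisible by `π`. -/
theorem IsUnif.div_mem {π : Qb} (hπ : IsUnif A H π) {c : Qb} (hc : c ∈ EH H)
    (hcm : c ∈ A.nonunits) : c / π ∈ A := by
  by_cases hc0 : c = 0
  · rw [hc0, zero_div]; exact A.zero_mem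
  obtain ⟨j, hj⟩ := hπ.gen c hc hc0
  have h1 : A.valuation π ^ j < 1 := by
    rw [← hj]; exact A.mem_nonunits_iff.mp hcm
  have h2 := discrete_one_le_of_zpow_lt_one hπ h1
  obtain ⟨n, hn⟩ : ∃ n : ℕ, j = (n : ℤ) + 1 := ⟨(j - 1).toNat, by omega⟩
  rw [← A.valuation_le_one_iff, map_div₀, hj, hn, zpow_add_one₀ (discrete_val_pos hπ).ne',
    mul_div_cancel_right₀ _ (discrete_val_pos hπ).ne', zpow_natCast]
  exact pow_le_one₀ zero_le (discrete_val_lt_one hπ).le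

/-- **decomposition** `x = π ^ j * (unit)`. -/
theorem IsUnif.exists_decomp {π : Qb} (hπ : IsUnif A H π) {x : LaurentSeries Qb} (hx : x ∈ FH H M)
    (hx0 : x ≠ 0) :
    ∃ (j : ℤ) (z : LaurentSeries (kk A)), z ≠ 0 ∧ HasRed A (x / HahnSeries.C (π ^ j)) z := by
  obtain ⟨c, hc, hc0, z, hz, hred⟩ := exists_const_hasRed A hx hx0
  obtain ⟨i, ub, hub, hu⟩ := hπ.exists_unit hc hc0
  have hCub : (HahnSeries.C ub : LaurentSeries (kk A)) ≠ 0 := C_ne_zero' hub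
  refine ⟨-i, z / HahnSeries.C ub, div_ne_zero hz hCub, ?_⟩
  have h1 := hred.div hu.hasRed hCub
  have hπi : π ^ i ≠ 0 := zpow_ne_zero _ hπ.ne_zero
  have h2 : HahnSeries.C c * x / HahnSeries.C (c / π ^ i) = x / HahnSeries.C (π ^ (-i)) := by
    have hCc : (HahnSeries.C c : LaurentSeries Qb) ≠ 0 := C_ne_zero' hc0
    have hCπ : (HahnSeries.C (π ^ i) : LaurentSeries Qb) ≠ 0 := C_ne_zero' hπi
    rw [zpow_neg, map_div₀, map_inv₀]
    field_simp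
  rwa [h2] at h1

/-- `x ∈ F_E`, `x ≠ 0`, `|x| < 1` : `x = π ^ n * (unit)` with `n ≥ 1`. -/
theorem discrete_exists_decomp_nat {π : Qb} (hπ : IsUnif A H π) {x : LaurentSeries Qb}
    (hx : x ∈ FH H M) (hx0 : x ≠ 0) (h0 : HasRed A x 0) :
    ∃ (n : ℕ) (z : LaurentSeries (kk A)), z ≠ 0 ∧
      HasRed A (x / HahnSeries.C (π ^ (n + 1))) z := by
  obtain ⟨j, z, hz, hred⟩ := hπ.exists_decomp hx hx0
  by_cases hj : 1 ≤ j
  · obtain ⟨n, hn⟩ : ∃ n : ℕ, j = ((n + 1 : ℕ) : ℤ) := ⟨(j - 1).toNat, by push_cast; omega⟩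
    rw [hn, zpow_natCast] at hred
    exact ⟨n, z, hz, hred⟩
  · exfalso
    obtain ⟨n, hn⟩ : ∃ n : ℕ, j = - (n : ℤ) := ⟨(-j).toNat, by omega⟩
    have h1 := hasRed_C_mul (CRed.mk (A := A) ⟨π ^ n, discrete_pow_mem hπ n⟩) h0
    rw [mul_zero] at h1
    have h2 : x / HahnSeries.C (π ^ j) = HahnSeries.C (π ^ n) * x := by
      rw [hn, zpow_neg, zpow_natCast, map_inv₀, div_inv_eq_mul, mul_comm]
    rw [h2] at hred
    exact hz (hred.unique h1)

/-- `x ∈ F_E`, `|x| < 1` implies `|x| ≤ |π|`. -/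
theorem IsUnif.hasRed_div {π : Qb} (hπ : IsUnif A H π) {x : LaurentSeries Qb} (hx : x ∈ FH H M)
    (h0 : HasRed A x 0) : ∃ z : LaurentSeries (kk A), HasRed A (x / HahnSeries.C π) z := by
  by_cases hx0 : x = 0
  · exact ⟨0, by rw [hx0, zero_div]; exact hasRed_zero'⟩
  obtain ⟨n, z, -, hred⟩ := discrete_exists_decomp_nat hπ hx hx0 h0
  have h1 := hasRed_C_mul (CRed.mk (A := A) ⟨π ^ n, discrete_pow_mem hπ n⟩) hred
  have h2 : HahnSeries.C (π ^ n) * (x / HahnSeries.C (π ^ (n + 1))) = x / HahnSeries.C π := by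
    have hCπ : (HahnSeries.C π : LaurentSeries Qb) ≠ 0 := C_ne_zero' hπ.ne_zero
    rw [map_pow, map_pow]
    field_simp
    rw [pow_succ]
  exact ⟨_, h2 ▸ h1⟩

/-- **discreteness of the depth**: `h ≡ 1 mod π^j 𝔪` implies `h ≡ 1 mod π^(j+1)`. -/
theorem IsUnif.dp_succ {π : Qb} (hπ : IsUnif A H π) {h : LaurentSeries Qb} (hh : h ∈ FH H M) {j : ℕ}
    (h0 : Dp A (π ^ j) h 0) : ∃ a : LaurentSeries (kk A), Dp A (π ^ (j + 1)) h a := by
  have h1 : (h - 1) / HahnSeries.C (π ^ j) ∈ FH H M :=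
    _root_.div_mem (sub_mem hh (one_mem _)) (C_mem_FH M (pow_mem hπ.fix j))
  obtain ⟨a, ha⟩ := hπ.hasRed_div h1 h0
  refine ⟨a, ?_⟩
  unfold Dp
  rwa [pow_succ, map_mul, ← div_div]

/-- `h ≡ 1 mod 𝔪` implies `h ≡ 1 mod π`. -/
theorem IsUnif.dp_one {π : Qb} (hπ : IsUnif A H π) {h : LaurentSeries Qb} (hh : h ∈ FH H M)
    (h1 : HasRed A h 1) : ∃ a : LaurentSeries (kk A), Dp A π h a := by
  have h2 : HasRed A (h - 1) 0 := by
    have := hasRed_sub' h1 HasRed.one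
    rwa [sub_self] at this
  exact hπ.hasRed_div (sub_mem hh (one_mem _)) h2

/-- exact depth: `h ∈ F_E`, `h ≡ 1 mod 𝔪`, `h ≠ 1`: `h = 1 + π^j f`, `j ≥ 1`, `f̄ ≠ 0`. -/
theorem IsUnif.exists_depth {π : Qb} (hπ : IsUnif A H π) {h : LaurentSeries Qb} (hh : h ∈ FH H M)
    (h1 : HasRed A h 1) (hne : h ≠ 1) :
    ∃ (j : ℕ) (a : LaurentSeries (kk A)), 1 ≤ j ∧ a ≠ 0 ∧ Dp A (π ^ j) h a := by
  have h2 : HasRed A (h - 1) 0 := by
    have := hasRed_sub' h1 HasRed.one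
    rwa [sub_self] at this
  obtain ⟨n, z, hz, hred⟩ := discrete_exists_decomp_nat hπ (sub_mem hh (one_mem _))
    (sub_ne_zero.mpr hne) h2
  exact ⟨n + 1, z, Nat.le_add_left 1 n, hz, hred⟩

/-- the `f` of `h = 1 + ε f` lies in `F_E`. -/
theorem sub_one_div_mem_FH {ε : Qb} (hε : ε ∈ EH H) {h : LaurentSeries Qb} (hh : h ∈ FH H M) :
    (h - 1) / HahnSeries.C ε ∈ FH H M :=
  _root_.div_mem (sub_mem hh (one_mem _)) (C_mem_FH M hε)

end Fermat.Agent.DSC
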