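import Fermat.Agent.DSC.Lattice
import Fermat.Agent.DSC.Teich
import Fermat.Agent.DSC.Discrete

/-!
# DSC-D3, D4 : `F_E` and `FL ℚ̄ M` have the same residue field; normal forms
-/

set_option autoImplicit false
noncomputable section

namespace Fermat.Agent.DSC

open ModularCurve HahnSeries Fermat.Agent.GR Fermat.Agent.GAL Fermat.Agent.ORD.P2

variable {M : ℕ} {H : Subgroup GQ} {A : ValuationSubring Qb}

/-! ## DSC-D3 : lifting reductions -/

/-- **`F_E` and `FL ℚ̄ M` have the same residue field.**  `x = P / Q` (`exists_frac_bot`), normalise `Q`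
(`exists_normalize_PH` with `H = ⊥`), then `P` is integral (`exists_int_of_hasRed_PH`), lift both (`exists_lift_PH`). -/
theorem exists_lift_FH_of (hres : ∀ cb : kk A, ∃ c ∈ EH H, CRed A c cb) {x : LaurentSeries Qb}
    (hx : x ∈ FL Qb M) {z : LaurentSeries (kk A)} (h : HasRed A x z) :
    ∃ x' ∈ FH H M, HasRed A x' z := by
  obtain ⟨P, hP, Q, hQ, hQ0, hxQ⟩ := exists_frac_bot hx
  obtain ⟨c, hc, hc0, yQ, hyQ, hyQ0⟩ := exists_normalize_PH A hQ hQ0
  have hQ₁ : HahnSeries.C c * Q ∈ PH ⊥ M := C_mul_mem_PH hc hQ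
  have hP₁ : HahnSeries.C c * P ∈ PH ⊥ M := C_mul_mem_PH hc hP
  have hredQ : HasRed A (HahnSeries.C c * Q) (coeffMap (IsLocalRing.residue A) yQ) := by
    rw [← hyQ]; exact HasRed.of_int yQ
  have hredP : HasRed A (HahnSeries.C c * P) (z * coeffMap (IsLocalRing.residue A) yQ) := by
    have := h.mul hredQ
    rwa [mul_left_comm, hxQ] at this
  obtain ⟨yP, hyP, hyPz⟩ := exists_int_of_hasRed_PH A hP₁ hredP
  obtain ⟨P', hP', yP', hyP', hyP'r⟩ := exists_lift_PH (H := H) hres hP₁ yP hyP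
  obtain ⟨Q', hQ', yQ', hyQ', hyQ'r⟩ := exists_lift_PH (H := H) hres hQ₁ yQ hyQ
  refine ⟨P' / Q', div_mem (PH_le_FH hP') (PH_le_FH hQ'), ?_⟩
  have h1 : HasRed A P' (z * coeffMap (IsLocalRing.residue A) yQ) := by
    rw [← hyP', ← hyPz, ← hyP'r]; exact HasRed.of_int yP'
  have h2 : HasRed A Q' (coeffMap (IsLocalRing.residue A) yQ) := by
    rw [← hyQ', ← hyQ'r]; exact HasRed.of_int yQ'
  have h3 := h1.div h2 hyQ0
  rwa [mul_div_cancel_right₀ _ hyQ0] at h3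

theorem exists_lift_FH {p : ℕ} (hp : p.Prime) (hA : A.LiesOverPrime p)
    (hH : H ≤ A.inertiaSubgroupIn ℚ) {x : LaurentSeries Qb} (hx : x ∈ FL Qb M)
    {z : LaurentSeries (kk A)} (h : HasRed A x z) : ∃ x' ∈ FH H M, HasRed A x' z :=
  exists_lift_FH_of (exists_lift_EH hp hA hH) hx h

/-! ## DSC-D4 : normal forms -/

/-- a constant series which has a reduction is an integral constant. -/
theorem LiftRed_cRed_of_hasRed_C {d : Qb} {w : LaurentSeries (kk A)}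
    (h : HasRed A (HahnSeries.C d) w) : ∃ db : kk A, CRed A d db ∧ w = HahnSeries.C db := by
  by_cases hd : d ∈ A
  · exact ⟨_, ⟨hd, rfl⟩, h.unique (CRed.hasRed ⟨hd, rfl⟩)⟩
  · exfalso
    have hd0 : d ≠ 0 := fun e => hd (e ▸ A.zero_mem)
    have hinv : d⁻¹ ∈ A.nonunits := by
      rw [ValuationSubring.mem_nonunits_iff_exists_mem_maximalIdeal]
      have hdi : d⁻¹ ∈ A := (A.mem_or_inv_mem d).resolve_left hd
      refine ⟨hdi, ?_⟩
      rw [IsLocalRing.mem_maximalIdeal, mem_nonunits_iff]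
      intro hu
      obtain ⟨u, hu⟩ := hu
      apply hd
      have h1 : ((u⁻¹ : Aˣ) : A) * (⟨d⁻¹, hdi⟩ : A) = 1 := by rw [← hu, Units.inv_mul]
      have h2 := congrArg Subtype.val h1
      have h3 : (((u⁻¹ : Aˣ) : A) : Qb) * d⁻¹ = 1 := h2
      have h4 : d = (((u⁻¹ : Aˣ) : A) : Qb) := by
        field_simp at h3
        exact h3.symm
      rw [h4]
      exact ((u⁻¹ : Aˣ) : A).2
    have h1 := hasRed_C_mul_zero hinv h
    rw [← map_mul, inv_mul_cancel₀ hd0, map_one] at h1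
    exact one_ne_zero (HasRed.one.unique h1)

/-- `g ∈ F_E`, `g ≠ 0`, whose normalised reduction is a constant: `g = c₁ (1 + π e)`, `c₁ ∈ E`. -/
theorem IsUnif.exists_const_dp {π : Qb} (hπ : IsUnif A H π)
    (hres : ∀ cb : kk A, ∃ c ∈ EH H, CRed A c cb) {g : LaurentSeries Qb} (hg : g ∈ FH H M)
    {c : Qb} (hc : c ≠ 0) {cb : kk A} (hcb : cb ≠ 0)
    (h : HasRed A (HahnSeries.C c * g) (HahnSeries.C cb)) :
    ∃ c₁ ∈ EH H, c₁ ≠ 0 ∧ ∃ a : LaurentSeries (kk A), Dp A π (g / HahnSeries.C c₁) a := by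
  have hCcb : (HahnSeries.C cb : LaurentSeries (kk A)) ≠ 0 := C_ne_zero' hcb
  have hcg0 : HahnSeries.C c * g ≠ 0 := h.ne_zero hCcb
  have hg0 : g ≠ 0 := right_ne_zero_of_mul hcg0
  obtain ⟨c', hc', hc'0, z, hz0, hz⟩ := exists_const_hasRed A hg hg0
  -- the ratio is a constant
  have h1 : HasRed A (HahnSeries.C (c' / c)) (z / HahnSeries.C cb) := by
    have h2 := hz.div h hCcb
    rwa [mul_div_mul_right _ _ hg0, ← map_div₀] at h2
  obtain ⟨db, -, hdb⟩ := LiftRed_cRed_of_hasRed_C h1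
  have hzC : z = HahnSeries.C (db * cb) := by
    rw [map_mul, ← hdb, div_mul_cancel₀ _ hCcb]
  have hzb0 : db * cb ≠ 0 := by
    intro e
    rw [e, map_zero] at hzC
    exact hz0 hzC
  obtain ⟨e, he, hecr⟩ := hres (db * cb)
  have he0 : e ≠ 0 := by
    rintro rfl
    exact hzb0 (hecr.unique CRed.zero)
  have hCe : (HahnSeries.C e : LaurentSeries Qb) ≠ 0 := C_ne_zero' he0
  have hCc' : (HahnSeries.C c' : LaurentSeries Qb) ≠ 0 := C_ne_zero' hc'0
  refine ⟨e / c', _root_.div_mem he hc', div_ne_zero he0 hc'0, ?_⟩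
  have h3 : HasRed A (g / HahnSeries.C (e / c')) 1 := by
    have h4 := hz.div hecr.hasRed (C_ne_zero' hzb0)
    rw [hzC, div_self (C_ne_zero' hzb0)] at h4
    have e1 : g / HahnSeries.C (e / c') = HahnSeries.C c' * g / HahnSeries.C e := by
      rw [map_div₀]
      field_simp
    rwa [e1]
  exact hπ.dp_one (_root_.div_mem hg (C_mem_FH M (_root_.div_mem he hc'))) h3

/-- improving a generator by a constant: `h = 1 + ε (c̄ + …)` with `ε ∈ E`: then `h / (1 + ε c) ≡ 1 mod ε 𝔪`. -/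
theorem exists_const_improve (hres : ∀ cb : kk A, ∃ c ∈ EH H, CRed A c cb) {ε : Qb} (hε : ε ∈ EH H)
    (hε0 : ε ≠ 0) (hεm : ε ∈ A.nonunits) {h : LaurentSeries Qb} {cb : kk A}
    (hh : Dp A ε h (HahnSeries.C cb)) :
    ∃ c ∈ EH H, c ≠ 0 ∧ Dp A ε (h / HahnSeries.C c) 0 := by
  obtain ⟨c₀, hc₀, hcr⟩ := hres cb
  have h1 : Dp A ε (HahnSeries.C (1 + ε * c₀)) (HahnSeries.C cb) := Dp.const hε0 hcr
  refine ⟨1 + ε * c₀, add_mem (one_mem _) (mul_mem hε hc₀), ?_, ?_⟩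
  · intro e
    apply h1.ne_zero hε0 hεm
    rw [e, map_zero]
  · have h2 := hh.div hε0 hεm h1
    rwa [sub_self] at h2

end Fermat.Agent.DSC
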