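import Fermat.Agent.DSC.FinIndex
import Fermat.Agent.ORD.P2.Lam

/-!
# DSC-E5 : `λ = ζ_p - 1` is a uniformiser of `ℚ̄^{H₁}`
-/

set_option autoImplicit false
noncomputable section

namespace Fermat.Agent.DSC

open NumberField Fermat.Agent.GAL Fermat.Agent.ORD.P2
open scoped Pointwise

/-! ## DSC-E5 : `E₁ = ℚ̄^{H₁}`, uniformiser `λ` -/

/-- the stabiliser of a primitive `p`-th root of unity is the kernel of the cyclotomic character. -/
theorem unifLam_autToPow_eq_one_iff {p : ℕ} [NeZero p] (hp : p.Prime) {z : Qb}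
    (hz : IsPrimitiveRoot z p) (τ : GQ) : hz.autToPow ℚ τ = 1 ↔ τ z = z := by
  have : Fact (1 < p) := ⟨hp.one_lt⟩
  have hspec := hz.autToPow_spec ℚ τ
  constructor
  · intro h
    rw [h, Units.val_one, ZMod.val_one, pow_one] at hspec
    exact hspec.symm
  · intro h
    rw [h] at hspec
    have h1 : ((hz.autToPow ℚ τ : (ZMod p)ˣ) : ZMod p).val = 1 := by
      refine hz.pow_inj (ZMod.val_lt _) hp.one_lt ?_
      rw [hspec, pow_one]
    apply Units.ext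
    rw [Units.val_one]
    apply ZMod.val_injective p
    rw [h1, ZMod.val_one]

/-- `[I : H₁] ∣ p - 1` (`I / H₁ ↪ (ℤ/p)^×`, `τ ζ = ζ ^ a(τ)`). -/
theorem relIndex_H1_dvd (A : ValuationSubring Qb) {p : ℕ} (hp : p.Prime) {ζ : Qbˣ}
    (hζ : IsPrimitiveRoot ζ p) : (H1 A ζ).relIndex (A.inertiaSubgroupIn ℚ) ∣ p - 1 := by
  have : NeZero p := ⟨hp.ne_zero⟩
  have : Fact p.Prime := ⟨hp⟩
  have hz : IsPrimitiveRoot (ζ : Qb) p := IsPrimitiveRoot.coe_units_iff.2 hζ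
  set χ : ↥(A.inertiaSubgroupIn ℚ) →* (ZMod p)ˣ :=
    (hz.autToPow ℚ).comp (A.inertiaSubgroupIn ℚ).subtype with hχ
  have hker : (H1 A ζ).subgroupOf (A.inertiaSubgroupIn ℚ) = χ.ker := by
    ext τ
    rw [Subgroup.mem_subgroupOf, mem_H1, MonoidHom.mem_ker, hχ, MonoidHom.comp_apply,
      unifLam_autToPow_eq_one_iff hp hz]
    exact ⟨fun h => h.2, fun h => ⟨τ.2, h⟩⟩
  rw [Subgroup.relIndex, hker, Subgroup.index_ker, ← ZMod.card_units p, ← Nat.card_eq_fintype_card]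
  exact Subgroup.card_subgroup_dvd_card _

/-- `|λ|^(p-1) = |p|` (`P2.cRed_p_div_lam`, `P2.cRed_lam_div_p`). -/
theorem valuation_lam_pow (A : ValuationSubring Qb) {p : ℕ} (hp : p.Prime) (hp2 : p ≠ 2)
    (hA : A.LiesOverPrime p) {ζ : Qbˣ} (hζ : IsPrimitiveRoot ζ p) :
    A.valuation (lam ζ) ^ (p - 1) = A.valuation (p : Qb) := by
  have h1 : A.valuation ((p : Qb) / lam ζ ^ (p - 1)) ≤ 1 :=
    (A.valuation_le_one_iff _).mpr (cRed_p_div_lam hp hp2 hA hζ).mem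
  have h2 : A.valuation (lam ζ ^ (p - 1) / (p : Qb)) ≤ 1 :=
    (A.valuation_le_one_iff _).mpr (cRed_lam_div_p hp hp2 hA hζ).mem
  have hl : A.valuation (lam ζ ^ (p - 1)) ≠ 0 :=
    (Valuation.ne_zero_iff _).mpr (pow_ne_zero _ (lam_ne_zero hp hζ))
  have hpp : A.valuation (p : Qb) ≠ 0 :=
    (Valuation.ne_zero_iff _).mpr (natCast_ne_zero_of_isPrimitiveRoot hp hζ)
  rw [map_div₀, div_le_one₀ (zero_lt_iff.mpr hl)] at h1
  rw [map_div₀, div_le_one₀ (zero_lt_iff.mpr hpp)] at h2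
  rw [← map_pow]
  exact le_antisymm h2 h1

/-- **`λ` is a uniformiser of `E₁ = ℚ̄^{H₁}`** (`|c|^(p-1) ∈ |p|^ℤ = |λ|^((p-1)ℤ)`; the value group is torsion free). -/
theorem isUnif_lam (A : ValuationSubring Qb) {p : ℕ} (hp : p.Prime) (hp2 : p ≠ 2)
    (hA : A.LiesOverPrime p) {ζ : Qbˣ} (hζ : IsPrimitiveRoot ζ p) :
    IsUnif A (H1 A ζ) (lam ζ) := by
  refine ⟨?_, lam_ne_zero hp hζ, lam_mem_nonunits hp hA hζ.pow_eq_one, ?_⟩
  · rw [mem_EH]
    intro τ hτ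
    rw [lam, map_sub, map_one, (mem_H1.mp hτ).2]
  · intro c hc hc0
    obtain ⟨t, ht⟩ := relIndex_H1_dvd A hp hζ
    have hp1 : p - 1 ≠ 0 := by have := hp.two_le; omega
    have hm : (H1 A ζ).relIndex (A.inertiaSubgroupIn ℚ) ≠ 0 := by
      intro h0
      rw [h0, zero_mul] at ht
      exact hp1 ht
    obtain ⟨j, hj⟩ := pow_relIndex_value A hp hA (H1_le A ζ) hm hc hc0
    refine ⟨t * j, ?_⟩
    rw [← valuation_lam_pow A hp hp2 hA hζ, ht] at hj
    have h3 : A.valuation c ^ (H1 A ζ).relIndex (A.inertiaSubgroupIn ℚ)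
        = (A.valuation (lam ζ) ^ ((t : ℤ) * j)) ^ (H1 A ζ).relIndex (A.inertiaSubgroupIn ℚ) := by
      rw [hj, ← zpow_natCast (A.valuation (lam ζ) ^ ((t : ℤ) * j)), ← zpow_mul,
        ← zpow_natCast (A.valuation (lam ζ)), ← zpow_mul]
      congr 1
      push_cast
      ring
    exact (pow_left_inj₀ zero_le zero_le hm).mp h3

end Fermat.Agent.DSC
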