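import Fermat.Agent.DSC.ClassDesc
import Fermat.Agent.DSC.LiftRed
import Fermat.Agent.DSC.UnifLam

/-!
# DSC : descent to a discretely valued field.  Import this file to use the block.

CONTRACT (all in namespace `Fermat.Agent.DSC`):
* `exists_fixed_rep`   : a Kummer class fixed by `H` has an `H`-fixed representative `u'`; `pow_mem_FH : u' ^ n ∈ FH H M`.
* `kummer_descent`     : `W ∈ F_E`, `W = c g^n` over `ℚ̄`  ⟹  `W = c' g'^n` with `c' ∈ E`, `g' ∈ F_E`.
* `isUnif_p`, `isUnif_lam`, `exists_isUnif`, `exists_isUnif_of_finiteDimensional` : uniformisers of `E = ℚ̄^H`.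
* `IsUnif.exists_decomp`, `IsUnif.hasRed_div`, `IsUnif.dp_succ`, `IsUnif.dp_one`, `IsUnif.exists_depth` : discreteness on `F_E`.
* `exists_lift_EH`, `exists_lift_FH` : `E`, `F_E` have the same residue fields as `ℚ̄`, `FL ℚ̄ M` (`H ≤ I_A`).
* `IsUnif.exists_const_dp`, `exists_const_improve` : normal forms.
-/
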