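import Fermat.Agent.DSC.InertiaVal

/-!
# DSC-E4 : `ℚ̄^H` is discretely valued if `[I : H] < ∞`
-/

set_option autoImplicit false
noncomputable section

namespace Fermat.Agent.DSC

open NumberField Fermat.Agent.GAL Fermat.Agent.ORD.P2
open scoped Pointwise

/-! ## DSC-E4 : subgroups of finite index -/

theorem FinIndex_mem_decomp (A : ValuationSubring Qb) {τ : GQ}
    (hτ : τ ∈ A.inertiaSubgroupIn ℚ) : τ ∈ A.decompositionSubgroup ℚ := by
  obtain ⟨⟨σ, hσ⟩, -, rfl⟩ := hτ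
  exact hσ

theorem FinIndex_decomp_mem_iff {A : ValuationSubring Qb} {σ : GQ}
    (hσ : σ ∈ A.decompositionSubgroup ℚ) {x : Qb} : σ x ∈ A ↔ x ∈ A := by
  have h1 : σ • A = A := hσ
  conv_lhs => rw [← h1]
  exact ValuationSubring.smul_mem_pointwise_smul_iff

theorem FinIndex_mul_not_mem {A : ValuationSubring Qb} {x y : Qb} (hx : x ∉ A) (hy : y ∉ A) :
    x * y ∉ A := by
  intro h
  have hy' : y⁻¹ ∈ A := (A.mem_or_inv_mem y).resolve_left hy
  have hy0 : y ≠ 0 := by rintro rfl; exact hy A.zero_mem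
  apply hx
  have := A.mul_mem _ _ h hy'
  rwa [mul_assoc, mul_inv_cancel₀ hy0, mul_one] at this

theorem FinIndex_exists_pow_fix (σ : GQ) (d : Qb) : ∃ r : ℕ, 0 < r ∧ (σ ^ r) d = d := by
  classical
  have hd : IsIntegral ℚ d := (AlgebraicClosure.isAlgebraic ℚ).isIntegral.isIntegral d
  have hfin : ((minpoly ℚ d).rootSet Qb).Finite := Polynomial.rootSet_finite _ _
  have hmem : ∀ i : ℕ, (σ ^ i) d ∈ (minpoly ℚ d).rootSet Qb := by
    intro i
    rw [Polynomial.mem_rootSet]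
    refine ⟨minpoly.ne_zero hd, ?_⟩
    have := Polynomial.aeval_algHom_apply ((σ ^ i : GQ) : Qb →ₐ[ℚ] Qb) d (minpoly ℚ d)
    rw [minpoly.aeval, map_zero] at this
    exact this
  have := hfin.to_subtype
  obtain ⟨i, j, hij, h⟩ := Finite.exists_ne_map_eq_of_infinite
    (fun i : ℕ => (⟨(σ ^ i) d, hmem i⟩ : (minpoly ℚ d).rootSet Qb))
  have h' : (σ ^ i) d = (σ ^ j) d := congrArg Subtype.val h
  wlog hlt : i < j generalizing i j
  · exact this j i hij.symm h.symm h'.symm (lt_of_le_of_ne (not_lt.mp hlt) hij.symm)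
  refine ⟨j - i, by omega, ?_⟩
  have e : j = i + (j - i) := by omega
  rw [e, pow_add, AlgEquiv.mul_apply] at h'
  exact ((σ ^ i).injective h').symm

theorem FinIndex_decomp_div_mem {A : ValuationSubring Qb} {σ : GQ}
    (hσ : σ ∈ A.decompositionSubgroup ℚ) {d : Qb} (hd : d ≠ 0) : σ d / d ∈ A := by
  by_contra hne
  have key : ∀ r : ℕ, (σ ^ (r + 1)) d / d ∉ A := by
    intro r
    induction r with
    | zero => simpa using hne
    | succ r ih =>
      have h1 : σ ((σ ^ (r + 1)) d / d) ∉ A := fun h => ih ((FinIndex_decomp_mem_iff hσ).1 h)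
      have h2 := FinIndex_mul_not_mem h1 hne
      have hσd : σ d ≠ 0 := (map_ne_zero σ).mpr hd
      have e : σ ((σ ^ (r + 1)) d / d) * (σ d / d) = (σ ^ (r + 1 + 1)) d / d := by
        rw [map_div₀, pow_succ' σ (r + 1), AlgEquiv.mul_apply]
        field_simp
      rwa [e] at h2
  obtain ⟨r, hr, hfix⟩ := FinIndex_exists_pow_fix σ d
  obtain ⟨s, rfl⟩ : ∃ s, r = s + 1 := ⟨r - 1, by omega⟩
  apply key s
  rw [hfix, div_self hd]
  exact A.one_mem

theorem FinIndex_valuation_le {A : ValuationSubring Qb} {σ : GQ}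
    (hσ : σ ∈ A.decompositionSubgroup ℚ) (c : Qb) : A.valuation (σ c) ≤ A.valuation c := by
  by_cases hc : c = 0
  · rw [hc, map_zero]
  have h1 := (A.valuation_le_one_iff _).2 (FinIndex_decomp_div_mem hσ hc)
  rw [map_div₀] at h1
  exact (div_le_one₀ (zero_lt_iff.2 ((map_ne_zero _).2 hc))).1 h1

/-- the decomposition group preserves the valuation. -/
theorem valuation_map_of_mem_inertia (A : ValuationSubring Qb) {τ : GQ}
    (hτ : τ ∈ A.inertiaSubgroupIn ℚ) (c : Qb) : A.valuation (τ c) = A.valuation c := by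
  have hd := FinIndex_mem_decomp A hτ
  refine le_antisymm (FinIndex_valuation_le hd c) ?_
  have h1 := FinIndex_valuation_le (inv_mem hd) (τ c)
  have h2 : τ⁻¹ (τ c) = c := τ.symm_apply_apply c
  rwa [h2] at h1

/-- **norm argument**: `N c = ∏_{g ∈ I / H} g c` is fixed by `I` and `|N c| = |c|^[I:H]`. -/
theorem pow_relIndex_value (A : ValuationSubring Qb) {p : ℕ} (hp : p.Prime)
    (hA : A.LiesOverPrime p) {H : Subgroup GQ} (hH : H ≤ A.inertiaSubgroupIn ℚ)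
    (hfin : H.relIndex (A.inertiaSubgroupIn ℚ) ≠ 0) {c : Qb} (hc : c ∈ EH H) (hc0 : c ≠ 0) :
    ∃ j : ℤ, A.valuation c ^ H.relIndex (A.inertiaSubgroupIn ℚ) = A.valuation (p : Qb) ^ j := by
  classical
  set I := A.inertiaSubgroupIn ℚ with hI
  have hfi : (H.subgroupOf I).FiniteIndex := ⟨hfin⟩
  have hfinq : Finite (I ⧸ H.subgroupOf I) := inferInstance
  have := Fintype.ofFinite (I ⧸ H.subgroupOf I)
  -- the value of `g c` only depends on the coset of `g`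
  have hout : ∀ g : I, ((Quotient.out (g : I ⧸ H.subgroupOf I) : I) : GQ) c = (g : GQ) c := by
    intro g
    obtain ⟨h, hh⟩ := QuotientGroup.mk_out_eq_mul (H.subgroupOf I) g
    rw [hh]
    show (g : GQ) (((h : I) : GQ) c) = _
    rw [mem_EH.mp hc _ (Subgroup.mem_subgroupOf.1 h.2)]
  set N : Qb := ∏ q : I ⧸ H.subgroupOf I, ((Quotient.out q : I) : GQ) c with hN
  have hNfix : N ∈ EH I := by
    rw [mem_EH]
    intro τ hτ
    rw [hN, map_prod]
    refine Fintype.prod_equiv (MulAction.toPerm (⟨τ, hτ⟩ : I)) _ _ fun q => ?_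
    obtain ⟨g, rfl⟩ := QuotientGroup.mk_surjective q
    have h1 : (MulAction.toPerm (⟨τ, hτ⟩ : I)) (g : I ⧸ H.subgroupOf I) =
        (((⟨τ, hτ⟩ : I) * g : I) : I ⧸ H.subgroupOf I) := rfl
    rw [h1, hout, hout]
    rfl
  have hN0 : N ≠ 0 := by
    rw [hN, Finset.prod_ne_zero_iff]
    intro q _
    exact (map_ne_zero _).2 hc0
  obtain ⟨j, hj⟩ := value_of_fixed_inertia A hp hA hNfix hN0
  refine ⟨j, ?_⟩
  rw [← hj, hN, map_prod]
  have h2 : ∀ q : I ⧸ H.subgroupOf I, A.valuation (((Quotient.out q : I) : GQ) c) =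
      A.valuation c := fun q => valuation_map_of_mem_inertia A (Quotient.out q).2 c
  simp only [h2]
  rw [Finset.prod_const, Finset.card_univ, ← Nat.card_eq_fintype_card, ← Subgroup.index_eq_card]
  rfl

/-- a subgroup `Γ` of a linearly ordered group with `Γ^m ⊆ γ₀^ℤ`, `γ₀ < 1`, `γ₀ ∈ Γ`... is cyclic: abstract form. -/
theorem exists_generator_of_pow_mem {Γ : Type*} [LinearOrderedCommGroupWithZero Γ] (S : Set Γ)
    (h1 : ∀ a ∈ S, a ≠ 0) (hmul : ∀ a ∈ S, ∀ b ∈ S, a * b ∈ S) (hinv : ∀ a ∈ S, a⁻¹ ∈ S)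
    {γ₀ : Γ} (hγ₀ : γ₀ ∈ S) (hlt : γ₀ < 1) {m : ℕ} (hm : m ≠ 0)
    (h : ∀ a ∈ S, ∃ j : ℤ, a ^ m = γ₀ ^ j) :
    ∃ γ ∈ S, γ < 1 ∧ ∀ a ∈ S, ∃ j : ℤ, a = γ ^ j := by
  have hγ₀0 : γ₀ ≠ 0 := h1 _ hγ₀
  let J : AddSubgroup ℤ :=
    { carrier := {j | ∃ a ∈ S, a ^ m = γ₀ ^ j}
      zero_mem' := ⟨γ₀ * γ₀⁻¹, hmul _ hγ₀ _ (hinv _ hγ₀), by
        rw [mul_inv_cancel₀ hγ₀0, one_pow, zpow_zero]⟩
      add_mem' := by
        rintro i j ⟨a, ha, hai⟩ ⟨b, hb, hbj⟩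
        exact ⟨a * b, hmul _ ha _ hb, by rw [mul_pow, hai, hbj, zpow_add₀ hγ₀0]⟩
      neg_mem' := by
        rintro i ⟨a, ha, hai⟩
        exact ⟨a⁻¹, hinv _ ha, by rw [inv_pow, hai, zpow_neg]⟩ }
  obtain ⟨d, hd⟩ := Int.subgroup_cyclic J
  have hmemJ : ∀ j : ℤ, j ∈ J ↔ ∃ n : ℤ, n • d = j := by
    intro j
    rw [hd, AddSubgroup.mem_closure_singleton]
  have hmJ : (m : ℤ) ∈ J := ⟨γ₀, hγ₀, by rw [zpow_natCast]⟩
  have hd0 : d ≠ 0 := by
    rintro rfl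
    obtain ⟨n, hn⟩ := (hmemJ m).1 hmJ
    rw [smul_zero] at hn
    exact hm (by exact_mod_cast hn.symm)
  have habsJ : |d| ∈ J := by
    rcases abs_choice d with h | h
    · rw [h]
      exact (hmemJ d).2 ⟨1, one_smul _ _⟩
    · rw [h]
      exact J.neg_mem ((hmemJ d).2 ⟨1, one_smul _ _⟩)
  obtain ⟨γ, hγS, hγ⟩ := habsJ
  have hpos : 0 < |d| := abs_pos.2 hd0
  refine ⟨γ, hγS, ?_, ?_⟩
  · by_contra hcon
    have h2 : 1 ≤ γ ^ m := one_le_pow₀ (not_lt.1 hcon)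
    rw [hγ] at h2
    obtain ⟨e, he⟩ : ∃ e : ℕ, |d| = (e : ℤ) := ⟨|d|.toNat, (Int.toNat_of_nonneg hpos.le).symm⟩
    rw [he, zpow_natCast] at h2
    have he0 : e ≠ 0 := by
      rintro rfl
      rw [he] at hpos
      exact lt_irrefl _ hpos
    exact absurd (pow_lt_one₀ zero_le hlt he0) (not_lt.2 h2)
  · intro a ha
    obtain ⟨j, hj⟩ := h a ha
    obtain ⟨n, hn⟩ := (hmemJ j).1 ⟨a, ha, hj⟩
    obtain ⟨k, hk⟩ : ∃ k : ℤ, j = |d| * k := by
      rcases abs_choice d with h | h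
      · exact ⟨n, by rw [h, ← hn, smul_eq_mul, mul_comm]⟩
      · exact ⟨-n, by rw [h, ← hn, smul_eq_mul]; ring⟩
    refine ⟨k, ?_⟩
    refine (pow_left_inj₀ zero_le zero_le hm).1 ?_
    rw [hj, hk, zpow_mul, ← hγ, ← zpow_natCast, ← zpow_natCast, ← zpow_mul, ← zpow_mul, mul_comm]

/-- **`ℚ̄^H` is discretely valued** if `[I : H] < ∞`. -/
theorem exists_isUnif (A : ValuationSubring Qb) {p : ℕ} (hp : p.Prime) (hA : A.LiesOverPrime p)
    {H : Subgroup GQ} (hH : H ≤ A.inertiaSubgroupIn ℚ)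
    (hfin : H.relIndex (A.inertiaSubgroupIn ℚ) ≠ 0) : ∃ π : Qb, IsUnif A H π := by
  have hp0 : (p : Qb) ≠ 0 := by exact_mod_cast hp.ne_zero
  have hpE : (p : Qb) ∈ EH H := mem_EH.mpr fun τ _ => map_natCast τ p
  obtain ⟨γ, ⟨π, hπE, hπ0, rfl⟩, hlt, hgen⟩ := exists_generator_of_pow_mem
    {γ | ∃ c ∈ EH H, c ≠ 0 ∧ A.valuation c = γ}
    (by
      rintro _ ⟨c, -, hc0, rfl⟩
      exact (map_ne_zero _).2 hc0)
    (by
      rintro _ ⟨c, hc, hc0, rfl⟩ _ ⟨c', hc', hc0', rfl⟩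
      exact ⟨c * c', mul_mem hc hc', mul_ne_zero hc0 hc0', map_mul _ _ _⟩)
    (by
      rintro _ ⟨c, hc, hc0, rfl⟩
      exact ⟨c⁻¹, inv_mem hc, inv_ne_zero hc0, map_inv₀ _ _⟩)
    (γ₀ := A.valuation (p : Qb)) ⟨p, hpE, hp0, rfl⟩ (A.mem_nonunits_iff.1 hA) hfin
    (by
      rintro _ ⟨c, hc, hc0, rfl⟩
      exact pow_relIndex_value A hp hA hH hfin hc hc0)
  exact ⟨π, hπE, hπ0, A.mem_nonunits_iff.2 hlt, fun c hc hc0 => hgen _ ⟨c, hc, hc0, rfl⟩⟩

/-- the subgroups used in the applications. -/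
theorem relIndex_inf_fixingSubgroup_ne_zero (I : Subgroup GQ) (L0 : IntermediateField ℚ Qb)
    [FiniteDimensional ℚ L0] : (I ⊓ L0.fixingSubgroup).relIndex I ≠ 0 := by
  have hgal : IsGalois ℚ Qb :=
    @IsAlgClosure.isGalois ℚ (AlgebraicClosure ℚ) _ _ (AlgebraicClosure.instAlgebra ℚ) _ _
  have hfi : L0.fixingSubgroup.FiniteIndex := by
    refine ⟨?_⟩
    rw [← IntermediateField.finrank_eq_fixingSubgroup_index]
    exact Module.finrank_pos.ne'
  rw [Subgroup.inf_relIndex_left]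
  have : L0.fixingSubgroup.IsFiniteRelIndex I := Subgroup.isFiniteRelIndex_of_finiteIndex
  exact Subgroup.relIndex_ne_zero

theorem exists_isUnif_of_finiteDimensional (A : ValuationSubring Qb) {p : ℕ} (hp : p.Prime)
    (hA : A.LiesOverPrime p) (L0 : IntermediateField ℚ Qb) [FiniteDimensional ℚ L0] :
    ∃ π : Qb, IsUnif A (A.inertiaSubgroupIn ℚ ⊓ L0.fixingSubgroup) π :=
  exists_isUnif A hp hA inf_le_left (relIndex_inf_fixingSubgroup_ne_zero _ L0)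

end Fermat.Agent.DSC
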