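import Fermat.Agent.DSC.Defs

/-!
# DSC-A0 : orbit sums (a series with leading coefficient 1 and finite level has a finite orbit; the orbit sum is fixed and nonzero)
-/

set_option autoImplicit false
noncomputable section

namespace Fermat.Agent.DSC

open ModularCurve HahnSeries Fermat.Agent.GR Fermat.Agent.GAL Fermat.Agent.ORD.P2

/-! ## DSC-A0 : orbit sums -/

theorem orbitSum_galS_support (τ : GQ) (x : LaurentSeries Qb) : (galS τ x).support = x.support := by
  ext k
  simp only [HahnSeries.mem_support, galS_coeff, ne_eq, EmbeddingLike.map_eq_zero_iff]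

theorem orbitSum_galS_eq_zero (τ : GQ) (x : LaurentSeries Qb) : galS τ x = 0 ↔ x = 0 := by
  rw [← HahnSeries.support_eq_empty_iff, orbitSum_galS_support, HahnSeries.support_eq_empty_iff]

theorem galS_order (τ : GQ) (x : LaurentSeries Qb) : (galS τ x).order = x.order := by
  by_cases hx : x = 0
  · rw [hx, map_zero]
  · have hx' : galS τ x ≠ 0 := fun h => hx ((orbitSum_galS_eq_zero τ x).1 h)
    apply le_antisymm
    · apply HahnSeries.order_le_of_coeff_ne_zero
      rw [galS_coeff]
      simpa using (HahnSeries.coeff_order_eq_zero.not.2 hx)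
    · apply HahnSeries.order_le_of_coeff_ne_zero
      have h := HahnSeries.coeff_order_eq_zero.not.2 hx'
      rw [galS_coeff] at h
      simpa using h

theorem galS_leadingCoeff (τ : GQ) (x : LaurentSeries Qb) :
    (galS τ x).leadingCoeff = τ x.leadingCoeff := by
  rw [HahnSeries.leadingCoeff_eq, HahnSeries.leadingCoeff_eq, galS_order, galS_coeff]

/-- a series of finite level has a finite orbit (`τ ↦ galS τ y` factors through the finite set `L0 →ₐ[ℚ] Qb`). -/
theorem finite_orbit {y : LaurentSeries Qb} (L0 : IntermediateField ℚ Qb) [FiniteDimensional ℚ L0]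
    (hL : ∀ σ : GQ, (∀ a ∈ L0, σ a = a) → galS σ y = y) :
    (Set.range fun τ : GQ => galS τ y).Finite := by
  classical
  -- the restriction map to the finite set `L0 →ₐ[ℚ] Qb`
  let r : GQ → (L0 →ₐ[ℚ] Qb) := fun τ => (τ : Qb →ₐ[ℚ] Qb).comp L0.val
  have hr : ∀ τ τ' : GQ, r τ = r τ' → galS τ y = galS τ' y := by
    intro τ τ' h
    have h1 : galS (τ⁻¹ * τ') y = y := by
      apply hL
      intro a ha
      have h2 : τ a = τ' a := DFunLike.congr_fun h (⟨a, ha⟩ : L0)
      rw [AlgEquiv.mul_apply, ← h2]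
      exact τ.symm_apply_apply a
    calc galS τ y = galS τ (galS (τ⁻¹ * τ') y) := by rw [h1]
      _ = galS (τ * (τ⁻¹ * τ')) y := (galS_mul _ _ _).symm
      _ = galS τ' y := by rw [mul_inv_cancel_left]
  have hfin : Finite (L0 →ₐ[ℚ] Qb) := inferInstance
  have hsub : (Set.range fun τ : GQ => galS τ y) ⊆
      (fun f : L0 →ₐ[ℚ] Qb => if h : ∃ τ : GQ, r τ = f then galS h.choose y else 0) '' Set.univ := by
    rintro _ ⟨τ, rfl⟩
    refine ⟨r τ, Set.mem_univ _, ?_⟩
    have h : ∃ τ' : GQ, r τ' = r τ := ⟨τ, rfl⟩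
    simp only [dif_pos h]
    exact hr _ _ h.choose_spec
  exact (Set.finite_univ.image _).subset hsub

/-- **orbit sum**.  `S` is stable under addition and under `H`; `y ∈ S` has leading coefficient `1` and finite level.
Then `S` contains a nonzero `H`-fixed element (the sum over the `H`-orbit of `y`; its coefficient at `y.order` is the
cardinality of the orbit). -/
theorem exists_fixed_of_stable (H : Subgroup GQ) (S : AddSubmonoid (LaurentSeries Qb))
    (hS : ∀ τ ∈ H, ∀ y ∈ S, galS τ y ∈ S) {y : LaurentSeries Qb} (hy : y ∈ S)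
    (hy1 : y.leadingCoeff = 1) (L0 : IntermediateField ℚ Qb) [FiniteDimensional ℚ L0]
    (hL : ∀ σ : GQ, (∀ a ∈ L0, σ a = a) → galS σ y = y) :
    ∃ y' ∈ S, y' ≠ 0 ∧ ∀ τ ∈ H, galS τ y' = y' := by
  classical
  have hfin : (Set.range fun τ : H => galS (τ : GQ) y).Finite := by
    refine (finite_orbit L0 hL).subset ?_
    rintro _ ⟨τ, rfl⟩
    exact ⟨τ, rfl⟩
  set T : Finset (LaurentSeries Qb) := hfin.toFinset with hT
  have hmemT : ∀ z, z ∈ T ↔ ∃ τ : H, galS (τ : GQ) y = z := by
    intro z
    rw [hT, Set.Finite.mem_toFinset]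
    exact Iff.rfl
  have hyT : y ∈ T := (hmemT y).2 ⟨1, galS_one y⟩
  refine ⟨∑ z ∈ T, z, ?_, ?_, ?_⟩
  · apply sum_mem
    intro z hz
    obtain ⟨τ, rfl⟩ := (hmemT z).1 hz
    exact hS τ τ.2 y hy
  · intro h0
    have hc : (∑ z ∈ T, z).coeff y.order = (T.card : Qb) := by
      rw [HahnSeries.coeff_sum]
      rw [Finset.sum_congr rfl (g := fun _ => (1 : Qb))]
      · simp
      · intro z hz
        obtain ⟨τ, rfl⟩ := (hmemT z).1 hz
        rw [galS_coeff, ← HahnSeries.leadingCoeff_eq, hy1, map_one]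
    rw [h0, HahnSeries.coeff_zero] at hc
    have hcard : T.card ≠ 0 := Finset.card_ne_zero_of_mem hyT
    exact hcard (by exact_mod_cast hc.symm)
  · intro τ hτ
    rw [map_sum]
    have hinj : Function.Injective (galS τ) := by
      intro a b hab
      have := (orbitSum_galS_eq_zero τ (a - b)).1 (by rw [map_sub, hab, sub_self])
      exact sub_eq_zero.1 this
    have hmaps : ∀ z ∈ T, galS τ z ∈ T := by
      intro z hz
      obtain ⟨σ, rfl⟩ := (hmemT z).1 hz
      exact (hmemT _).2 ⟨⟨τ, hτ⟩ * σ, galS_mul _ _ _⟩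
    have himg : T.image (galS τ) = T :=
      Finset.eq_of_subset_of_card_le
        (by
          intro z hz
          obtain ⟨w, hw, rfl⟩ := Finset.mem_image.1 hz
          exact hmaps w hw)
        (by rw [Finset.card_image_of_injective _ hinj])
    calc ∑ z ∈ T, galS τ z = ∑ z ∈ T.image (galS τ), z :=
          (Finset.sum_image (f := fun z => z) (fun a _ b _ h => hinj h)).symm
      _ = ∑ z ∈ T, z := by rw [himg]

end Fermat.Agent.DSC
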