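import Fermat.Agent.DSC.OrbitSum

/-!
# DSC-A1, A2 : descent of a Kummer class to an `H`-fixed representative; Kummer descent of a root
-/

set_option autoImplicit false
noncomputable section

namespace Fermat.Agent.DSC

open ModularCurve HahnSeries Fermat.Agent.GR Fermat.Agent.GAL Fermat.Agent.ORD.P2

variable {M n : ℕ}

/-! ## DSC-A1 : descent of a class -/

/-- if `r ^ n = C c` (`n ≠ 0`) then `r` is a constant. -/
theorem exists_eq_C_of_pow_eq_C {r : LaurentSeries Qb} {c : Qb} (hn : n ≠ 0)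
    (h : r ^ n = HahnSeries.C c) : ∃ d : Qb, r = HahnSeries.C d := by
  have hint : IsIntegral Qb r := by
    refine IsIntegral.of_pow (Nat.pos_of_ne_zero hn) ?_
    rw [h, C_eq_algebraMap]
    exact isIntegral_algebraMap
  have h1 : (minpoly Qb r).degree = 1 :=
    IsAlgClosed.degree_eq_one_of_irreducible Qb (minpoly.irreducible hint)
  obtain ⟨d, hd⟩ := minpoly.mem_range_of_degree_eq_one Qb r h1
  exact ⟨d, by rw [C_eq_algebraMap, hd]⟩

theorem ClassDesc_leadingCoeff_C_mul (d : Qb) (y : LaurentSeries Qb) :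
    (HahnSeries.C d * y).leadingCoeff = d * y.leadingCoeff := by
  rw [HahnSeries.leadingCoeff_mul]
  congr 1
  exact HahnSeries.leadingCoeff_of_single

theorem ClassDesc_ne_zero_of_leadingCoeff {x : LaurentSeries Qb} (hx : x.leadingCoeff = 1) :
    x ≠ 0 := by
  rw [← HahnSeries.leadingCoeff_ne_zero, hx]
  exact one_ne_zero

/-- normalisation of the leading coefficient. -/
theorem ClassDesc_leadingCoeff_normalise {x : LaurentSeries Qb} (hx : x ≠ 0) :
    (HahnSeries.C x.leadingCoeff⁻¹ * x).leadingCoeff = 1 := by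
  rw [ClassDesc_leadingCoeff_C_mul, inv_mul_cancel₀ (HahnSeries.leadingCoeff_ne_zero.2 hx)]

/-- two series with leading coefficient `1` whose `n`-th powers are proportional are equal. -/
theorem eq_of_pow_eq_C_mul {x y : LaurentSeries Qb} {c : Qb} (hn : n ≠ 0)
    (hx : x.leadingCoeff = 1) (hy : y.leadingCoeff = 1) (h : x ^ n = HahnSeries.C c * y ^ n) :
    x = y := by
  have hy0 : y ≠ 0 := ClassDesc_ne_zero_of_leadingCoeff hy
  have h1 : (x / y) ^ n = HahnSeries.C c := by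
    rw [div_pow, h, mul_div_assoc, div_self (pow_ne_zero n hy0), mul_one]
  obtain ⟨d, hd⟩ := exists_eq_C_of_pow_eq_C hn h1
  have h2 : x = HahnSeries.C d * y := by
    rw [← hd, div_mul_cancel₀ _ hy0]
  have h3 : d = 1 := by
    have := ClassDesc_leadingCoeff_C_mul d y
    rw [← h2, hx, hy, mul_one] at this
    exact this.symm
  rw [h2, h3, map_one, one_mul]

/-- a Kummer element with leading coefficient `1` has finite level (not only its class). -/
theorem IsKum.exists_level_fixed {u : LaurentSeries Qb} (hn : n ≠ 0) (hu : IsKum Qb M n u)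
    (hu1 : u.leadingCoeff = 1) :
    ∃ L0 : IntermediateField ℚ Qb, FiniteDimensional ℚ L0 ∧
      ∀ σ : GQ, (∀ a ∈ L0, σ a = a) → galS σ u = u := by
  obtain ⟨L0, hfin, hL⟩ := exists_level_of_mem_FL hu.pow_mem
  refine ⟨L0, hfin, fun σ hσ => ?_⟩
  have h1 := hL σ hσ
  rw [map_pow] at h1
  refine eq_of_pow_eq_C_mul (c := 1) hn ?_ hu1 (by rw [h1, map_one, one_mul])
  rw [galS_leadingCoeff, hu1, map_one]

/-- **(D1) descent of a class**: a Kummer class fixed by `H` has an `H`-fixed representative. -/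
theorem exists_fixed_rep (H : Subgroup GQ) (hn : n ≠ 0) {u : LaurentSeries Qb}
    (hu : IsKum Qb M n u) (hH : ∀ τ ∈ H, galS τ u / u ∈ FL Qb M) :
    ∃ u' : LaurentSeries Qb, IsKum Qb M n u' ∧ u' / u ∈ FL Qb M ∧ ∀ τ ∈ H, galS τ u' = u' := by
  have hu0 : u ≠ 0 := hu.ne_zero
  have hl0 : u.leadingCoeff⁻¹ ≠ 0 := inv_ne_zero (HahnSeries.leadingCoeff_ne_zero.2 hu0)
  have hC0 : (HahnSeries.C u.leadingCoeff⁻¹ : LaurentSeries Qb) ≠ 0 := C_ne_zero' hl0
  set u₁ : LaurentSeries Qb := HahnSeries.C u.leadingCoeff⁻¹ * u with hu₁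
  have hu₁0 : u₁ ≠ 0 := mul_ne_zero hC0 hu0
  have hu₁lc : u₁.leadingCoeff = 1 := ClassDesc_leadingCoeff_normalise hu0
  have hu₁K : IsKum Qb M n u₁ := (isKum_of_mem (C_mem_FL M _) hC0).mul hu
  have hu₁u : u₁ / u ∈ FL Qb M := by
    rw [hu₁, mul_div_assoc, div_self hu0, mul_one]
    exact C_mem_FL M _
  have hH₁ : ∀ τ ∈ H, galS τ u₁ / u₁ ∈ FL Qb M := by
    intro τ hτ
    have e : galS τ u₁ / u₁
        = (galS τ (HahnSeries.C u.leadingCoeff⁻¹) / HahnSeries.C u.leadingCoeff⁻¹)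
          * (galS τ u / u) := by
      rw [hu₁, map_mul, mul_div_mul_comm]
    rw [e]
    exact mul_mem (div_mem (galS_mem_FL τ (C_mem_FL M _)) (C_mem_FL M _)) (hH τ hτ)
  obtain ⟨L0, hfin, hL⟩ := IsKum.exists_level_fixed hn hu₁K hu₁lc
  let S : AddSubmonoid (LaurentSeries Qb) :=
    { carrier := {y | ∃ Y ∈ FL Qb M, y = Y * u₁}
      add_mem' := by
        rintro _ _ ⟨Y, hY, rfl⟩ ⟨Y', hY', rfl⟩
        exact ⟨Y + Y', add_mem hY hY', (add_mul _ _ _).symm⟩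
      zero_mem' := ⟨0, zero_mem _, (zero_mul _).symm⟩ }
  have hS : ∀ τ ∈ H, ∀ y ∈ S, galS τ y ∈ S := by
    rintro τ hτ _ ⟨Y, hY, rfl⟩
    refine ⟨galS τ Y * (galS τ u₁ / u₁), mul_mem (galS_mem_FL τ hY) (hH₁ τ hτ), ?_⟩
    rw [map_mul, mul_assoc, div_mul_cancel₀ _ hu₁0]
  obtain ⟨y', ⟨Y, hY, rfl⟩, hy'0, hy'fix⟩ := exists_fixed_of_stable H S hS
    (⟨1, one_mem _, (one_mul _).symm⟩ : u₁ ∈ S) hu₁lc L0 hL
  have hY0 : Y ≠ 0 := left_ne_zero_of_mul hy'0
  refine ⟨Y * u₁, (isKum_of_mem hY hY0).mul hu₁K, ?_, hy'fix⟩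
  rw [mul_div_assoc]
  exact mul_mem hY hu₁u

/-- the generator `u' ^ n` lies in `F_E`. -/
theorem pow_mem_FH {H : Subgroup GQ} {u : LaurentSeries Qb} (hu : IsKum Qb M n u)
    (hH : ∀ τ ∈ H, galS τ u = u) : u ^ n ∈ FH H M :=
  ⟨hu.pow_mem, fun τ hτ => by rw [map_pow, hH τ hτ]⟩

/-! ## DSC-A2 : Kummer descent of a root -/

/-- **(D5)**: if `W ∈ F_E` is `c g ^ n` over `ℚ̄`, it is so over `E`
(normalise `g` to leading coefficient `1`). -/
theorem kummer_descent (H : Subgroup GQ) (hn : n ≠ 0) {W g : LaurentSeries Qb} {c : Qb}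
    (hW : W ∈ FH H M) (hW0 : W ≠ 0) (hg : g ∈ FL Qb M) (h : W = HahnSeries.C c * g ^ n) :
    ∃ c' ∈ EH H, ∃ g' ∈ FH H M, W = HahnSeries.C c' * g' ^ n ∧
      ∃ d : Qb, d ≠ 0 ∧ g' = HahnSeries.C d * g := by
  have hg0 : g ≠ 0 := by
    rintro rfl
    rw [zero_pow hn, mul_zero] at h
    exact hW0 h
  have hl : g.leadingCoeff ≠ 0 := HahnSeries.leadingCoeff_ne_zero.2 hg0
  obtain ⟨g', hg'⟩ : ∃ g' : LaurentSeries Qb, g' = HahnSeries.C g.leadingCoeff⁻¹ * g := ⟨_, rfl⟩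
  have hg'lc : g'.leadingCoeff = 1 := by rw [hg']; exact ClassDesc_leadingCoeff_normalise hg0
  have hg'0 : g' ≠ 0 := ClassDesc_ne_zero_of_leadingCoeff hg'lc
  have hg'FL : g' ∈ FL Qb M := by rw [hg']; exact mul_mem (C_mem_FL M _) hg
  obtain ⟨c', hc'⟩ : ∃ c' : Qb, c' = c * g.leadingCoeff ^ n := ⟨_, rfl⟩
  have hW' : W = HahnSeries.C c' * g' ^ n := by
    rw [h, hg', hc', mul_pow, ← map_pow, ← mul_assoc, ← map_mul, inv_pow, mul_assoc,
      mul_inv_cancel₀ (pow_ne_zero n hl), mul_one]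
  have hc'0 : c' ≠ 0 := by
    rintro h0
    rw [h0, map_zero, zero_mul] at hW'
    exact hW0 hW'
  have hτ : ∀ τ ∈ H, HahnSeries.C (τ c') * galS τ g' ^ n = HahnSeries.C c' * g' ^ n := by
    intro τ hτ
    have := hW.2 τ hτ
    rw [hW', map_mul, map_pow, galS_C] at this
    exact this
  have hfix : ∀ τ ∈ H, galS τ g' = g' := by
    intro τ hτH
    have hτc : τ c' ≠ 0 := (map_ne_zero τ).2 hc'0
    refine eq_of_pow_eq_C_mul (c := (τ c')⁻¹ * c') hn ?_ hg'lc ?_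
    · rw [galS_leadingCoeff, hg'lc, map_one]
    · have e : (HahnSeries.C (τ c')⁻¹ * HahnSeries.C (τ c') : LaurentSeries Qb) = 1 := by
        rw [← map_mul, inv_mul_cancel₀ hτc, map_one]
      calc galS τ g' ^ n
          = (HahnSeries.C (τ c')⁻¹ * HahnSeries.C (τ c')) * galS τ g' ^ n := by rw [e, one_mul]
        _ = HahnSeries.C (τ c')⁻¹ * (HahnSeries.C (τ c') * galS τ g' ^ n) := mul_assoc _ _ _
        _ = HahnSeries.C (τ c')⁻¹ * (HahnSeries.C c' * g' ^ n) := by rw [hτ τ hτH]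
        _ = HahnSeries.C ((τ c')⁻¹ * c') * g' ^ n := by
          rw [(HahnSeries.C : Qb →+* LaurentSeries Qb).map_mul, mul_assoc]
  refine ⟨c', mem_EH.mpr fun τ hτH => ?_, g', ⟨hg'FL, hfix⟩, hW', g.leadingCoeff⁻¹,
    inv_ne_zero hl, hg'⟩
  have h1 := hτ τ hτH
  rw [hfix τ hτH] at h1
  have h2 := mul_right_cancel₀ (pow_ne_zero n hg'0) h1
  exact HahnSeries.C_injective h2

end Fermat.Agent.DSC
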