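import Fermat.Agent.DSC.PolyRing

/-!
# DSC-B2 : `FL ℚ̄ M = Frac (PH ⊥ M)`
-/

set_option autoImplicit false
noncomputable section

namespace Fermat.Agent.DSC

open ModularCurve HahnSeries Fermat.Agent.GR Fermat.Agent.GAL Fermat.Agent.ORD.P2

variable {M : ℕ} {H : Subgroup GQ}

/-! ## DSC-B2 : fractions over `ℚ̄` -/

/-- the field of fractions of `PH ⊥ M` inside `ℚ̄((q))`. -/
def FracBot_field (M : ℕ) : Subfield (LaurentSeries Qb) where
  carrier := {x | ∃ P ∈ PH ⊥ M, ∃ Q ∈ PH ⊥ M, Q ≠ 0 ∧ x * Q = P}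
  mul_mem' := by
    rintro x x' ⟨P, hP, Q, hQ, hQ0, h⟩ ⟨P', hP', Q', hQ', hQ0', h'⟩
    exact ⟨P * P', mul_mem_PH hP hP', Q * Q', mul_mem_PH hQ hQ', mul_ne_zero hQ0 hQ0', by
      rw [← h, ← h']; ring⟩
  one_mem' := ⟨1, one_mem_PH, 1, one_mem_PH, one_ne_zero, one_mul 1⟩
  add_mem' := by
    rintro x x' ⟨P, hP, Q, hQ, hQ0, h⟩ ⟨P', hP', Q', hQ', hQ0', h'⟩
    exact ⟨P * Q' + P' * Q, Submodule.add_mem _ (mul_mem_PH hP hQ') (mul_mem_PH hP' hQ), Q * Q',
      mul_mem_PH hQ hQ', mul_ne_zero hQ0 hQ0', by rw [← h, ← h']; ring⟩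
  zero_mem' := ⟨0, Submodule.zero_mem _, 1, one_mem_PH, one_ne_zero, zero_mul 1⟩
  neg_mem' := by
    rintro x ⟨P, hP, Q, hQ, hQ0, h⟩
    exact ⟨-P, Submodule.neg_mem _ hP, Q, hQ, hQ0, by rw [← h]; ring⟩
  inv_mem' := by
    rintro x ⟨P, hP, Q, hQ, hQ0, h⟩
    rcases eq_or_ne x 0 with rfl | hx0
    · exact ⟨0, Submodule.zero_mem _, 1, one_mem_PH, one_ne_zero, by simp⟩
    · refine ⟨Q, hQ, P, hP, ?_, ?_⟩
      · rw [← h]; exact mul_ne_zero hx0 hQ0
      · rw [← h, ← mul_assoc, inv_mul_cancel₀ hx0, one_mul]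

theorem FracBot_mem_of_mem_PH {P : LaurentSeries Qb} (hP : P ∈ PH ⊥ M) : P ∈ FracBot_field M :=
  ⟨P, hP, 1, one_mem_PH, one_ne_zero, mul_one P⟩

theorem FracBot_C_mem (c : Qb) : (HahnSeries.C c : LaurentSeries Qb) ∈ FracBot_field M := by
  apply FracBot_mem_of_mem_PH
  have := C_mul_mem_PH (M := M) (mem_EH_bot c) (one_mem_PH (H := ⊥) (M := M))
  rwa [mul_one] at this

theorem FracBot_coeffEmb_mem {y : LaurentSeries ℚ} (hy : y ∈ modularFunctionFieldFull M) :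
    coeffEmb Qb y ∈ FracBot_field M := by
  have hy' : y ∈ Subfield.closure
      (Set.range (algebraMap ℚ (LaurentSeries ℚ)) ∪ divisorExpansions M) := hy
  have hle : Subfield.closure
      (Set.range (algebraMap ℚ (LaurentSeries ℚ)) ∪ divisorExpansions M) ≤
        (FracBot_field M).comap (coeffEmb Qb) := by
    rw [Subfield.closure_le]
    rintro _ (⟨r, rfl⟩ | ⟨d, hd, hdM, rfl⟩)
    · show coeffEmb Qb (algebraMap ℚ (LaurentSeries ℚ) r) ∈ FracBot_field M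
      have : coeffEmb Qb (algebraMap ℚ (LaurentSeries ℚ) r) = HahnSeries.C (algebraMap ℚ Qb r) := by
        rw [algebraMap_laurentSeries_eq_single, coeffEmb, coeffMap_single]
        rfl
      rw [this]
      exact FracBot_C_mem _
    · show coeffEmb Qb (qExpand ℚ d jq) ∈ FracBot_field M
      rw [coeffEmb_qExpand_jq d]
      exact FracBot_mem_of_mem_PH (intS_mem_PH (Subring.subset_closure ⟨d, hd, hdM, rfl⟩))
  exact hle hy'

/-- (`mem_laurentBaseChange_iff`, `Subfield.mem_closure_iff`; the subring generated by the constants and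
`coeffEmb '' modularFunctionFieldFull M` consists of fractions: prove that the set of all `P / Q`, `P, Q ∈ PH ⊥ M`, `Q ≠ 0`,
is a subfield containing the generators `C c`, `coeffEmb (qExpand ℚ d jq) = intS (qExpand ℤ d (jqModC ℤ))`.) -/
theorem exists_frac_bot {x : LaurentSeries Qb} (hx : x ∈ FL Qb M) :
    ∃ P ∈ PH ⊥ M, ∃ Q ∈ PH ⊥ M, Q ≠ 0 ∧ x * Q = P := by
  have hx' := mem_laurentBaseChange_iff.1 hx
  have hle : Subfield.closure (Set.range (algebraMap Qb (LaurentSeries Qb)) ∪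
      (⇑(coeffEmb Qb) '' (modularFunctionFieldFull M : Set (LaurentSeries ℚ)))) ≤ FracBot_field M := by
    rw [Subfield.closure_le]
    rintro _ (⟨c, rfl⟩ | ⟨y, hy, rfl⟩)
    · rw [algebraMap_eq_C]
      exact FracBot_C_mem c
    · exact FracBot_coeffEmb_mem hy
  exact hle hx'

end Fermat.Agent.DSC
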