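import Fermat.Agent.DSC.SpanDesc
import Fermat.Agent.DSC.FracBot
import Fermat.Agent.DSC.OrbitSum

/-!
# DSC-B4 : `F_E = Frac (PH H M)`
-/

set_option autoImplicit false
noncomputable section

namespace Fermat.Agent.DSC

open ModularCurve HahnSeries Fermat.Agent.GR Fermat.Agent.GAL Fermat.Agent.ORD.P2

variable {M : ℕ} {H : Subgroup GQ}

/-! ## DSC-B4 : fractions over `E` -/

/-- **`F_E = Frac (PH H M)`**.  `𝒬 = {Q ∈ PH ⊥ M : x Q ∈ PH ⊥ M}` is stable under addition, constants and `H`,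
and `≠ 0` (`exists_frac_bot`); normalise `Q ∈ 𝒬` to leading coefficient `1`; `exists_fixed_of_stable`
(finite level: `exists_level_of_mem_FL`); `mem_PH_of_fixed` for `Q'` and `x Q'`. -/
theorem exists_frac {x : LaurentSeries Qb} (hx : x ∈ FH H M) :
    ∃ P ∈ PH H M, ∃ Q ∈ PH H M, Q ≠ 0 ∧ x * Q = P := by
  obtain ⟨P0, hP0, Q0, hQ0, hQ0ne, hxQ0⟩ := exists_frac_bot hx.1
  let S : AddSubmonoid (LaurentSeries Qb) :=
    { carrier := {Q | Q ∈ PH ⊥ M ∧ x * Q ∈ PH ⊥ M}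
      add_mem' := fun ha hb => ⟨add_mem ha.1 hb.1, by rw [mul_add]; exact add_mem ha.2 hb.2⟩
      zero_mem' := ⟨zero_mem _, by rw [mul_zero]; exact zero_mem _⟩ }
  have hS : ∀ τ ∈ H, ∀ y ∈ S, galS τ y ∈ S := fun τ hτ y hy =>
    ⟨galS_mem_PH_bot τ hy.1, by
      have := galS_mem_PH_bot τ hy.2
      rwa [map_mul, hx.2 τ hτ] at this⟩
  have hc : Q0.leadingCoeff ≠ 0 := HahnSeries.leadingCoeff_ne_zero.mpr hQ0ne
  have hy : HahnSeries.C Q0.leadingCoeff⁻¹ * Q0 ∈ S :=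
    ⟨C_mul_mem_PH (mem_EH_bot _) hQ0, by
      rw [mul_left_comm, hxQ0]; exact C_mul_mem_PH (mem_EH_bot _) hP0⟩
  have hy1 : (HahnSeries.C Q0.leadingCoeff⁻¹ * Q0).leadingCoeff = 1 := by
    rw [HahnSeries.leadingCoeff_mul, HahnSeries.C_apply, HahnSeries.leadingCoeff_of_single,
      inv_mul_cancel₀ hc]
  obtain ⟨L0, hL0, hL⟩ := exists_level_of_mem_FL (PH_le_FH hy.1).1
  obtain ⟨y', hy', hy'ne, hfix⟩ := exists_fixed_of_stable H S hS hy hy1 L0 hL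
  exact ⟨x * y', mem_PH_of_fixed hy'.2 (fun τ hτ => by rw [map_mul, hx.2 τ hτ, hfix τ hτ]), y',
    mem_PH_of_fixed hy'.1 hfix, hy'ne, rfl⟩

end Fermat.Agent.DSC
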