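import Fermat.Agent.DSC.Defs

/-!
# DSC : normalisation of a series of `GR.PSer` with coefficients in `E = ℚ̄^H` by a constant of `E`

General form of `exists_normalize_PH` (usable for the images of `PH H M` under the expansions at other cusps).
-/

set_option autoImplicit false
noncomputable section

namespace Fermat.Agent.DSC

open ModularCurve HahnSeries Fermat.Agent.GR Fermat.Agent.GAL Fermat.Agent.ORD.P2

/-- a series `P ≠ 0` of `GR.PSer ℚ̄` all of whose coefficients lie in `E = ℚ̄^H` becomes integral with nonzero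
reduction after multiplication by a constant of `E` (the inverse of a coefficient of maximal absolute value). -/
theorem exists_normalize_of_coeff (A : ValuationSubring Qb) {H : Subgroup GQ}
    {P : LaurentSeries Qb} (hP : P ∈ PSer Qb) (hc : ∀ k, P.coeff k ∈ EH H) (hP0 : P ≠ 0) :
    ∃ c ∈ EH H, c ≠ 0 ∧ ∃ y : LaurentSeries A, coeffMap A.subtype y = HahnSeries.C c * P ∧
      coeffMap (IsLocalRing.residue A) y ≠ 0 := by
  obtain ⟨k₀, hk₀, hmax⟩ := exists_max_coeff A hP hP0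
  have hmem : ∀ k, (HahnSeries.C (P.coeff k₀)⁻¹ * P).coeff k ∈ A := by
    intro k
    rw [HahnSeries.C_mul_eq_smul, HahnSeries.coeff_smul, smul_eq_mul, ← A.valuation_le_one_iff,
      map_mul, map_inv₀]
    have hpos : A.valuation (P.coeff k₀) ≠ 0 := (map_ne_zero _).mpr hk₀
    rw [inv_mul_le_iff₀ (zero_lt_iff.mpr hpos), mul_one]
    exact hmax k
  obtain ⟨y, hy⟩ := exists_int_of_coeff_mem A _ hmem
  refine ⟨(P.coeff k₀)⁻¹, inv_mem (hc k₀), inv_ne_zero hk₀, y, hy, ?_⟩
  intro h0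
  have h1 : y.coeff k₀ = 1 := by
    apply Subtype.ext
    have := congrArg (fun f => HahnSeries.coeff f k₀) hy
    simp only [coeffMap_coeff, HahnSeries.C_mul_eq_smul, HahnSeries.coeff_smul, smul_eq_mul] at this
    rw [inv_mul_cancel₀ hk₀] at this
    exact this
  have h2 := congrArg (fun f => HahnSeries.coeff f k₀) h0
  simp only [coeffMap_coeff, h1, map_one, HahnSeries.coeff_zero] at h2
  exact one_ne_zero h2

/-- consequence: a quotient `x = P / Q` of two such series satisfies `HasRed A (C c * x) z`, `z ≠ 0`, with `c ∈ E`. -/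
theorem exists_const_hasRed_of_frac (A : ValuationSubring Qb) {H : Subgroup GQ}
    {x P Q : LaurentSeries Qb} (hP : P ∈ PSer Qb) (hPc : ∀ k, P.coeff k ∈ EH H) (hQ : Q ∈ PSer Qb)
    (hQc : ∀ k, Q.coeff k ∈ EH H) (hQ0 : Q ≠ 0) (hx : x * Q = P) (hx0 : x ≠ 0) :
    ∃ c ∈ EH H, c ≠ 0 ∧ ∃ z : LaurentSeries (kk A), z ≠ 0 ∧ HasRed A (HahnSeries.C c * x) z := by
  have hP0 : P ≠ 0 := by rw [← hx]; exact mul_ne_zero hx0 hQ0
  obtain ⟨c₁, hc₁, hc₁0, y₁, hy₁, hr₁⟩ := exists_normalize_of_coeff A hP hPc hP0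
  obtain ⟨c₂, hc₂, hc₂0, y₂, hy₂, hr₂⟩ := exists_normalize_of_coeff A hQ hQc hQ0
  refine ⟨c₁ / c₂, div_mem hc₁ hc₂, div_ne_zero hc₁0 hc₂0, _, div_ne_zero hr₁ hr₂, ?_⟩
  have h := (HasRed.of_int y₁).div (HasRed.of_int y₂) hr₂
  rw [hy₁, hy₂] at h
  convert h using 1
  have hC : (HahnSeries.C c₂ : LaurentSeries Qb) ≠ 0 := C_ne_zero' hc₂0
  rw [← hx, map_div₀]
  field_simp

end Fermat.Agent.DSC
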