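import Fermat.Agent.DSC.FracDesc

/-!
# DSC-C1 : the Gauss valuation of `F_E` has the value group of `E`
-/

set_option autoImplicit false
noncomputable section

namespace Fermat.Agent.DSC

open ModularCurve HahnSeries Fermat.Agent.GR Fermat.Agent.GAL Fermat.Agent.ORD.P2

variable {M : ℕ} {H : Subgroup GQ} (A : ValuationSubring Qb)

/-! ## DSC-C1 : value group -/

/-- normalisation of an element of `PH H M` by one of its coefficients (`GR.exists_max_coeff`, `coeff_mem_EH`). -/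
theorem exists_normalize_PH {P : LaurentSeries Qb} (hP : P ∈ PH H M) (hP0 : P ≠ 0) :
    ∃ c ∈ EH H, c ≠ 0 ∧ ∃ y : LaurentSeries A, coeffMap A.subtype y = HahnSeries.C c * P ∧
      coeffMap (IsLocalRing.residue A) y ≠ 0 := by
  obtain ⟨k₀, hk₀, hmax⟩ := exists_max_coeff A (PH_le_PSer hP) hP0
  have hmem : ∀ k, (HahnSeries.C (P.coeff k₀)⁻¹ * P).coeff k ∈ A := by
    intro k
    rw [HahnSeries.C_mul_eq_smul, HahnSeries.coeff_smul, smul_eq_mul, ← A.valuation_le_one_iff,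
      map_mul, map_inv₀]
    have hpos : A.valuation (P.coeff k₀) ≠ 0 := (map_ne_zero _).mpr hk₀
    rw [inv_mul_le_iff₀ (zero_lt_iff.mpr hpos), mul_one]
    exact hmax k
  obtain ⟨y, hy⟩ := exists_int_of_coeff_mem A _ hmem
  refine ⟨(P.coeff k₀)⁻¹, inv_mem (coeff_mem_EH (PH_le_FH hP).2 k₀), inv_ne_zero hk₀, y, hy, ?_⟩
  intro h0
  have h1 : y.coeff k₀ = 1 := by
    apply Subtype.ext
    have := congrArg (fun f => HahnSeries.coeff f k₀) hy
    simp only [coeffMap_coeff, HahnSeries.C_mul_eq_smul, HahnSeries.coeff_smul, smul_eq_mul] at this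
    rw [inv_mul_cancel₀ hk₀] at this
    exact this
  have h2 := congrArg (fun f => HahnSeries.coeff f k₀) h0
  simp only [coeffMap_coeff, h1, map_one, HahnSeries.coeff_zero] at h2
  exact one_ne_zero h2

/-- an element of `PH H M` which is Gauss-integral has coefficients in `A`. -/
theorem exists_int_of_hasRed_PH {P : LaurentSeries Qb} (hP : P ∈ PH H M)
    {z : LaurentSeries (kk A)} (h : HasRed A P z) :
    ∃ y : LaurentSeries A, coeffMap A.subtype y = P ∧ coeffMap (IsLocalRing.residue A) y = z := by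
  rcases eq_or_ne P 0 with rfl | hP0
  · refine ⟨0, map_zero _, ?_⟩
    have h0 := HasRed.of_int (A := A) 0
    rw [map_zero] at h0
    exact h0.unique h
  obtain ⟨c, -, hc0, y₁, hy₁, hr₁⟩ := exists_normalize_PH A hP hP0
  have hCc : (HahnSeries.C c : LaurentSeries Qb) ≠ 0 := by
    rw [Ne, map_eq_zero]
    exact hc0
  by_cases hcA : c⁻¹ ∈ A
  · have hy : coeffMap A.subtype (HahnSeries.C (⟨c⁻¹, hcA⟩ : A) * y₁) = P := by
      rw [map_mul, hy₁, coeffMap_C, ← mul_assoc, ← map_mul]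
      change HahnSeries.C (c⁻¹ * c) * P = P
      rw [inv_mul_cancel₀ hc0, map_one, one_mul]
    refine ⟨_, hy, ?_⟩
    rw [← hy] at h
    exact h.eq_of_int
  · exfalso
    have hcmem : c ∈ A := (A.mem_or_inv_mem c).resolve_right hcA
    have hres : IsLocalRing.residue A ⟨c, hcmem⟩ = 0 := by
      rw [IsLocalRing.residue_eq_zero_iff, IsLocalRing.mem_maximalIdeal, mem_nonunits_iff]
      intro hu
      obtain ⟨u, hu⟩ := hu
      apply hcA
      have h1 : ((u⁻¹ : Aˣ) : A) * (⟨c, hcmem⟩ : A) = 1 := by rw [← hu]; exact u.inv_mul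
      have h2 : (((u⁻¹ : Aˣ) : A) : Qb) * c = 1 := congrArg Subtype.val h1
      rw [← eq_inv_of_mul_eq_one_left h2]
      exact ((u⁻¹ : Aˣ) : A).2
    have h1 := HasRed.of_int (A := A) (HahnSeries.C (⟨c, hcmem⟩ : A))
    rw [coeffMap_C, coeffMap_C, hres, map_zero] at h1
    have h2 := h1.mul h
    rw [zero_mul] at h2
    change HasRed A (HahnSeries.C c * P) 0 at h2
    rw [← hy₁] at h2
    exact hr₁ h2.eq_of_int

/-- **the value group of `F_E` is that of `E`.** -/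
theorem exists_const_hasRed {x : LaurentSeries Qb} (hx : x ∈ FH H M) (hx0 : x ≠ 0) :
    ∃ c ∈ EH H, c ≠ 0 ∧ ∃ z : LaurentSeries (kk A), z ≠ 0 ∧ HasRed A (HahnSeries.C c * x) z := by
  obtain ⟨P, hP, Q, hQ, hQ0, hxQ⟩ := exists_frac hx
  have hP0 : P ≠ 0 := by
    rw [← hxQ]
    exact mul_ne_zero hx0 hQ0
  obtain ⟨c₁, hc₁E, hc₁, y₁, hy₁, hr₁⟩ := exists_normalize_PH A hP hP0
  obtain ⟨c₂, hc₂E, hc₂, y₂, hy₂, hr₂⟩ := exists_normalize_PH A hQ hQ0
  refine ⟨c₁ / c₂, div_mem hc₁E hc₂E, div_ne_zero hc₁ hc₂, _, div_ne_zero hr₁ hr₂, ?_⟩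
  have h := (HasRed.of_int y₁).div (HasRed.of_int y₂) hr₂
  rw [hy₁, hy₂] at h
  convert h using 1
  rw [map_div₀, ← hxQ]
  have : (HahnSeries.C c₂ : LaurentSeries Qb) ≠ 0 := by
    rw [Ne, map_eq_zero]
    exact hc₂
  field_simp

end Fermat.Agent.DSC
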