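import Fermat.Agent.DSC.Defs
import Fermat.Agent.S14.FL.Hilbert
import Fermat.Agent.S14.FL.Dedekind

/-!
# DSC-E2 : from ideals to the valuation `A`
-/

set_option autoImplicit false
noncomputable section

namespace Fermat.Agent.DSC

open NumberField Fermat.Agent.GAL Fermat.Agent.ORD.P2
open scoped Pointwise

/-! ## DSC-E2 : from ideals to the valuation `A` -/

/-- an algebraic integer lies in `A`. -/
theorem mem_of_isIntegral (A : ValuationSubring Qb) {x : Qb} (hx : IsIntegral ℤ x) : x ∈ A := by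
  have h1 : IsIntegral A x := hx.tower_top
  obtain ⟨y, hy⟩ := (IsIntegrallyClosed.isIntegral_iff (R := A) (K := Qb)).1 h1
  rw [← hy]
  exact y.2

/-- two elements with the same exact power differ by a quotient of elements outside `P`. -/
theorem IdealVal_exists_mul_eq {R : Type*} [CommRing R] [IsDedekindDomain R] (P : Ideal R)
    [P.IsPrime] {a b : R} {n : ℕ} (ha : S14.Th.ExactPow P a n) (hb : S14.Th.ExactPow P b n) :
    ∃ s t : R, s ∉ P ∧ t ∉ P ∧ a * t = s * b := by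
  obtain ⟨J, hJ⟩ := Ideal.dvd_span_singleton.2 hb.1
  have hJP : ¬ J ≤ P := by
    intro hle
    obtain ⟨J', rfl⟩ := Ideal.dvd_iff_le.2 hle
    apply hb.2
    rw [← Ideal.dvd_span_singleton, hJ, pow_succ, ← mul_assoc]
    exact Dvd.intro _ rfl
  obtain ⟨t, htJ, htP⟩ := SetLike.not_le_iff_exists.1 hJP
  have hat : a * t ∈ Ideal.span {b} := by
    rw [hJ]
    exact Ideal.mul_mem_mul ha.1 htJ
  obtain ⟨s, hs⟩ := Ideal.mem_span_singleton'.1 hat
  refine ⟨s, t, ?_, htP, hs.symm⟩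
  intro hsP
  have ht0 : S14.Th.ExactPow P t 0 := ⟨by simp, by rwa [zero_add, pow_one]⟩
  have h1 := (ha.mul ht0).2
  apply h1
  rw [← hs, add_zero, pow_succ, mul_comm s b]
  exact Ideal.mul_mem_mul hb.1 hsP

/-- Let `K` be a number field, `φ : K → ℚ̄`, `𝔭 = φ⁻¹(𝔪_A) ∩ 𝓞 K` unramified over `p`.  Then `|φ K^×| = |p|^ℤ`.
PROOF. `a ∈ 𝓞 K`, `a ≠ 0`, `a ∈ 𝔭^n \ 𝔭^(n+1)` (`S14.Th.ExactPow`, `S14.FL.exactPow_natCast`: `p ∈ 𝔭 \ 𝔭²`).
`(p^n) = 𝔭^n J`, `J ⊄ 𝔭`; take `t ∈ J \ 𝔭`: `t a = s p^n` with `s ∉ 𝔭`; `|φ t| = |φ s| = 1`. -/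
theorem value_of_ramificationIdx_eq_one {K : Type*} [Field K] [NumberField K] (φ : K →+* Qb)
    (A : ValuationSubring Qb) {p : ℕ} (hp : p.Prime) (𝔭 : Ideal (𝓞 K)) [𝔭.IsPrime]
    (hp𝔭 : (p : 𝓞 K) ∈ 𝔭)
    (h𝔭 : ∀ a : 𝓞 K, a ∈ 𝔭 ↔ φ (a : K) ∈ A.nonunits) (he : 𝔭.ramificationIdx ℤ = 1)
    (x : K) (hx : x ≠ 0) : ∃ j : ℤ, A.valuation (φ x) = A.valuation (p : Qb) ^ j := by
  -- units outside `𝔭`
  have hunit : ∀ t : 𝓞 K, t ∉ 𝔭 → A.valuation (φ (t : K)) = 1 := by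
    intro t ht
    have h1 : φ (t : K) ∈ A := by
      apply mem_of_isIntegral
      have : IsIntegral ℤ (t : K) := t.2
      exact this.map (φ : K →+* Qb).toIntAlgHom
    have h2 : φ (t : K) ∉ A.nonunits := fun h => ht ((h𝔭 t).2 h)
    rw [ValuationSubring.mem_nonunits_iff, not_lt] at h2
    exact le_antisymm ((A.valuation_le_one_iff _).2 h1) h2
  have hpe : S14.Th.ExactPow 𝔭 (p : 𝓞 K) 1 := by
    have := S14.FL.exactPow_natCast 𝔭 hp hp𝔭
    rwa [he] at this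
  -- integers
  have hint : ∀ a : 𝓞 K, a ≠ 0 → ∃ n : ℕ, A.valuation (φ (a : K)) = A.valuation (p : Qb) ^ n := by
    intro a ha
    obtain ⟨n, hn⟩ := S14.FL.dedekind_exists_exactPow 𝔭 ha
    have hpn : S14.Th.ExactPow 𝔭 ((p : 𝓞 K) ^ n) n := by
      have := hpe.pow n
      rwa [mul_one] at this
    obtain ⟨s, t, hs, ht, hst⟩ := IdealVal_exists_mul_eq 𝔭 hn hpn
    refine ⟨n, ?_⟩
    have h1 := congrArg (fun y : 𝓞 K => A.valuation (φ (y : K))) hst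
    simp only [map_mul, map_pow, map_natCast, hunit s hs, hunit t ht, mul_one, one_mul] at h1
    exact h1
  obtain ⟨a, b, hb, rfl⟩ := IsFractionRing.div_surjective (A := 𝓞 K) x
  have hb0 : b ≠ 0 := nonZeroDivisors.ne_zero hb
  have ha0 : a ≠ 0 := by
    rintro rfl
    apply hx
    rw [map_zero, zero_div]
  obtain ⟨n, hn⟩ := hint a ha0
  obtain ⟨m, hm⟩ := hint b hb0
  have hv : A.valuation (p : Qb) ≠ 0 := by
    rw [Ne, map_eq_zero]
    exact_mod_cast hp.ne_zero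
  refine ⟨(n : ℤ) - m, ?_⟩
  rw [map_div₀, map_div₀, zpow_sub₀ hv, zpow_natCast, zpow_natCast]
  exact congrArg₂ (· / ·) hn hm

end Fermat.Agent.DSC
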