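import Mathlib

/-!
# DSC-E1 : the inertia field is unramified (ideal theory)
-/

set_option autoImplicit false
noncomputable section

namespace Fermat.Agent.DSC

open NumberField
open scoped Pointwise

/-! ## DSC-E1 : the inertia field is unramified (ideal theory; complements `Mathlib.NumberTheory.RamificationInertia.HilbertTheory`) -/

/-- Let `L/ℚ` be a finite Galois extension, `P` a nonzero prime of `𝓞 L`, `E` the fixed field of the inertia group of `P`.
Then `P ∩ 𝓞 E` is unramified over `ℤ`.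
PROOF as for `IsDecompositionField.ramificationIdx_eq` in Mathlib: `IsGaloisGroup (P.inertia Gal(L/ℚ)) (𝓞 E) (𝓞 L)`
(`IsGaloisGroup.subgroup`, `IsGaloisGroup.of_isFractionRing`); the inertia group of `P` in `P.inertia G` is everything
(`Ideal.coe_mem_inertia`), so by `Ideal.card_inertia_eq_ramificationIdxIn` (twice)
`e(P / P ∩ 𝓞 E) = #I = e(P / p)`; conclude with `Ideal.ramificationIdx_tower`. -/
theorem ramificationIdx_under_inertiaField {L : Type*} [Field L] [NumberField L] [IsGalois ℚ L]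
    (P : Ideal (𝓞 L)) [P.IsPrime] (hP : P ≠ ⊥) :
    (P.under (𝓞 (FixedPoints.intermediateField (P.inertia (L ≃ₐ[ℚ] L)) :
      IntermediateField ℚ L))).ramificationIdx ℤ = 1 := by
  set E : IntermediateField ℚ L := FixedPoints.intermediateField (P.inertia (L ≃ₐ[ℚ] L)) with hE
  have g1 : IsGaloisGroup (L ≃ₐ[ℚ] L) ℤ (𝓞 L) := .of_isFractionRing _ _ _ ℚ L
  have g2 : IsGaloisGroup (P.inertia (L ≃ₐ[ℚ] L)) E L :=
    IsGaloisGroup.subgroup (L ≃ₐ[ℚ] L) ℚ L (P.inertia (L ≃ₐ[ℚ] L))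
  have g3 : IsGaloisGroup (P.inertia (L ≃ₐ[ℚ] L)) (𝓞 E) (𝓞 L) := .of_isFractionRing _ _ _ E L
  have hPmax : P.IsMaximal := Ring.DimensionLEOne.maximalOfPrime hP inferInstance
  -- the primes below
  have hp0 : P.under ℤ ≠ ⊥ := Ideal.under_ne_bot ℤ hP
  have hE0 : P.under (𝓞 E) ≠ ⊥ := Ideal.under_ne_bot (𝓞 E) hP
  have hpmax : (P.under ℤ).IsMaximal := Ideal.IsMaximal.under ℤ P
  have hEmax : (P.under (𝓞 E)).IsMaximal := Ideal.IsMaximal.under (𝓞 E) P
  have f1 : Finite (ℤ ⧸ P.under ℤ) := Ring.HasFiniteQuotients.finiteQuotient hp0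
  have f2 : Finite (𝓞 E ⧸ P.under (𝓞 E)) := Ring.HasFiniteQuotients.finiteQuotient hE0
  have c1 := Ideal.card_inertia_eq_ramificationIdxIn (G := (L ≃ₐ[ℚ] L)) (P.under ℤ) P
  have c2 := Ideal.card_inertia_eq_ramificationIdxIn (G := P.inertia (L ≃ₐ[ℚ] L)) (P.under (𝓞 E)) P
  have htop : P.inertia (P.inertia (L ≃ₐ[ℚ] L)) = ⊤ := by
    ext σ
    simp only [Subgroup.mem_top, iff_true]
    exact Ideal.coe_mem_inertia.1 σ.2
  rw [htop, Subgroup.card_top, c1, Ideal.ramificationIdxIn_eq_ramificationIdx (P.under ℤ) P (L ≃ₐ[ℚ] L),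
    Ideal.ramificationIdxIn_eq_ramificationIdx (P.under (𝓞 E)) P (P.inertia (L ≃ₐ[ℚ] L))] at c2
  have ht := Ideal.ramificationIdx_tower (R := ℤ) (P.under (𝓞 E)) P
  rw [← c2] at ht
  exact (right_eq_mul₀ (Ideal.ramificationIdx_pos P ℤ).ne').1 ht

end Fermat.Agent.DSC
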