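import Fermat.Agent.DSC.IdealVal
import Fermat.Agent.DSC.InertiaField

/-!
# DSC-E2b : elements fixed by the inertia group, finite level
-/

set_option autoImplicit false
noncomputable section

namespace Fermat.Agent.DSC

open NumberField Fermat.Agent.GAL Fermat.Agent.ORD.P2
open scoped Pointwise

/-! ## DSC-E2b -/

/-- finite level version of `isUnif_p` (E1 + E2 with `P = {b : (b : ℚ̄) ∈ 𝔪_A}`, `K = ` the inertia field of `P`). -/
theorem value_of_fixed_inertia_finite (L : IntermediateField ℚ Qb) [FiniteDimensional ℚ L]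
    [IsGalois ℚ L] (A : ValuationSubring Qb) {p : ℕ} (hp : p.Prime) (hA : A.LiesOverPrime p)
    (x : L) (hx0 : x ≠ 0)
    (hx : ∀ τ : L ≃ₐ[ℚ] L, (∀ b : 𝓞 L, (((τ (b : L) - (b : L) : L)) : Qb) ∈ A.nonunits) → τ x = x) :
    ∃ j : ℤ, A.valuation (x : Qb) = A.valuation (p : Qb) ^ j := by
  have : NumberField L := { to_charZero := inferInstance, to_finiteDimensional := inferInstance }
  -- the ring homomorphism `𝓞 L → A`
  have hint : ∀ b : 𝓞 L, (((b : L)) : Qb) ∈ A := fun b =>
    mem_of_isIntegral A ((RingOfIntegers.isIntegral_coe b).map (algebraMap L Qb).toIntAlgHom)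
  let f : 𝓞 L →+* A :=
    { toFun := fun b => ⟨((b : L) : Qb), hint b⟩
      map_one' := rfl
      map_mul' := fun _ _ => rfl
      map_zero' := rfl
      map_add' := fun _ _ => rfl }
  let P : Ideal (𝓞 L) := (IsLocalRing.maximalIdeal A).comap f
  have hPprime : P.IsPrime := Ideal.comap_isPrime f _
  have hmemP : ∀ b : 𝓞 L, b ∈ P ↔ ((b : L) : Qb) ∈ A.nonunits := fun b =>
    (ValuationSubring.coe_mem_nonunits_iff (a := f b)).symm
  have hpP : (p : 𝓞 L) ∈ P := by
    rw [hmemP]
    have h1 : (p : Qb) ∈ A.nonunits := hA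
    simpa using h1
  have hP0 : P ≠ ⊥ := by
    intro h0
    rw [h0, Ideal.mem_bot] at hpP
    exact hp.ne_zero (by exact_mod_cast hpP)
  -- `x` lies in the inertia field
  let E : IntermediateField ℚ L := FixedPoints.intermediateField (P.inertia (L ≃ₐ[ℚ] L))
  have hxE : x ∈ E := by
    rintro ⟨τ, hτ⟩
    refine hx τ fun b => ?_
    have h1 := (hmemP _).mp (hτ b)
    exact h1
  have he := ramificationIdx_under_inertiaField P hP0
  have hmem𝔭 : ∀ a : 𝓞 E, a ∈ P.under (𝓞 E) ↔
      ((algebraMap L Qb).comp (algebraMap E L)) (a : E) ∈ A.nonunits := by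
    intro a
    rw [Ideal.mem_under, hmemP]
    rfl
  have hp𝔭 : (p : 𝓞 E) ∈ P.under (𝓞 E) := by
    rw [Ideal.mem_under, map_natCast]
    exact hpP
  have hxE0 : (⟨x, hxE⟩ : E) ≠ 0 := by
    intro h0
    exact hx0 (congrArg Subtype.val h0)
  exact value_of_ramificationIdx_eq_one ((algebraMap L Qb).comp (algebraMap E L)) A hp
    (P.under (𝓞 E)) hp𝔭 hmem𝔭 he ⟨x, hxE⟩ hxE0

end Fermat.Agent.DSC
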