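import Fermat.Agent.DSC.InertiaFin
import Fermat.Agent.S14.T1.DictB

/-!
# DSC-E3 : `p` is a uniformiser of the inertia field `ℚ̄^I`
-/

set_option autoImplicit false
noncomputable section

namespace Fermat.Agent.DSC

open NumberField Fermat.Agent.GAL Fermat.Agent.ORD.P2
open scoped Pointwise

/-! ## DSC-E3 : the inertia field of `A` -/

/-- (`L` = normal closure of `ℚ(c)`; `S14.lift_inertia`; `value_of_fixed_inertia_finite`). -/
theorem value_of_fixed_inertia (A : ValuationSubring Qb) {p : ℕ} (hp : p.Prime)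
    (hA : A.LiesOverPrime p) {c : Qb} (hc : c ∈ EH (A.inertiaSubgroupIn ℚ)) (hc0 : c ≠ 0) :
    ∃ j : ℤ, A.valuation c = A.valuation (p : Qb) ^ j := by
  have hgal : IsGalois ℚ Qb := Fermat.Agent.Lib.FrobeniusExists.isGalois_algebraicClosure_rat
  have hint : IsIntegral ℚ c := Algebra.IsIntegral.isIntegral c
  have : FiniteDimensional ℚ (IntermediateField.adjoin ℚ {c}) :=
    IntermediateField.adjoin.finiteDimensional hint
  let L : IntermediateField ℚ Qb :=
    IntermediateField.normalClosure ℚ (IntermediateField.adjoin ℚ {c}) Qb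
  have : FiniteDimensional ℚ L := normalClosure.is_finiteDimensional ℚ _ Qb
  have : IsGalois ℚ L := IsGalois.normalClosure ℚ _ Qb
  have hcL : c ∈ L := (IntermediateField.le_normalClosure (IntermediateField.adjoin ℚ {c}))
    (IntermediateField.mem_adjoin_simple_self ℚ c)
  refine value_of_fixed_inertia_finite L A hp hA ⟨c, hcL⟩
    (fun h => hc0 (congrArg Subtype.val h)) (fun τ hτ => ?_)
  obtain ⟨σ, hσ, hσL⟩ := Fermat.Agent.S14.lift_inertia L A τ hτ
  apply Subtype.ext
  rw [← hσL ⟨c, hcL⟩]
  exact mem_EH.mp hc σ hσ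

theorem isUnif_p (A : ValuationSubring Qb) {p : ℕ} (hp : p.Prime) (hA : A.LiesOverPrime p) :
    IsUnif A (A.inertiaSubgroupIn ℚ) (p : Qb) where
  fix := mem_EH.mpr fun τ _ => map_natCast τ p
  ne_zero := by exact_mod_cast hp.ne_zero
  mem := hA
  gen := fun _ hc hc0 => value_of_fixed_inertia A hp hA hc hc0

end Fermat.Agent.DSC
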