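import Fermat.Agent.DSC.PolyRing

/-!
# DSC-D2 : lifting integral elements of the span (lattice lemma)
-/

set_option autoImplicit false
noncomputable section

namespace Fermat.Agent.DSC

open ModularCurve HahnSeries Fermat.Agent.GR Fermat.Agent.GAL Fermat.Agent.ORD.P2

variable {M : ℕ} {H : Subgroup GQ} {A : ValuationSubring Qb}

/-! ## DSC-D2 : lifting integral elements of the span -/

/-- the abstract lattice lemma. -/
theorem lattice_abs {L : Type} [Field L] [CharZero L] (A : ValuationSubring L) (E : Subfield L)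
    (hres : ∀ c ∈ A, ∃ c' ∈ E, A.valuation (c' - c) < 1)
    {ι κ : Type} [Fintype ι] (a : ι → L) (row : κ → (ι → ℤ))
    (hrow : ∀ k, ∑ i, (row k i : L) * a i ∈ A) :
    ∃ a' : ι → L, (∀ i, a' i ∈ E) ∧
      ∀ k, A.valuation (∑ i, (row k i : L) * a' i - ∑ i, (row k i : L) * a i) < 1 := by
  classical
  let φ : (ι → ℤ) →ₗ[ℤ] L := Fintype.linearCombination ℤ a
  have hφ : ∀ w : ι → ℤ, φ w = ∑ i, (w i : L) * a i := by
    intro w
    rw [Fintype.linearCombination_apply]
    exact Finset.sum_congr rfl fun i _ => by rw [zsmul_eq_mul]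
  set Λ : Submodule ℤ (ι → ℤ) := Submodule.span ℤ (Set.range row) with hΛ
  have hφA : ∀ w ∈ Λ, φ w ∈ A := by
    intro w hw
    induction hw using Submodule.span_induction with
    | mem x hx =>
      obtain ⟨k, rfl⟩ := hx
      rw [hφ]; exact hrow k
    | zero => rw [map_zero]; exact A.zero_mem
    | add x y _ _ hx hy => rw [map_add]; exact A.add_mem _ _ hx hy
    | smul n x _ hx => rw [map_smul]; exact zsmul_mem hx n
  let e := Module.Free.chooseBasis ℤ Λ
  have hex : ∀ j, ∃ c' ∈ E, A.valuation (c' - φ (e j)) < 1 := fun j => hres _ (hφA _ (e j).2)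
  choose b hbE hb using hex
  let ψ₀ : Λ →ₗ[ℤ] E := e.constr ℤ fun j => (⟨b j, hbE j⟩ : E)
  obtain ⟨ψ, hψ⟩ := (Module.Baer.of_divisible E).extension_property Λ.subtype
    Subtype.val_injective ψ₀
  have hψ' : ∀ w : Λ, ψ (w : ι → ℤ) = ψ₀ w := fun w => DFunLike.congr_fun hψ w
  refine ⟨fun i => (ψ (Pi.single i 1) : L), fun i => (ψ (Pi.single i 1)).2, fun k => ?_⟩
  have h1 : ∀ w : ι → ℤ, ∑ i, (w i : L) * (ψ (Pi.single i 1) : L) = (ψ w : L) := by
    intro w
    have hw : w = ∑ i, w i • (Pi.single i 1 : ι → ℤ) := by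
      ext j
      simp [Finset.sum_apply, Pi.single_apply]
    conv_rhs => rw [hw]
    rw [map_sum, AddSubmonoidClass.coe_finsetSum]
    refine Finset.sum_congr rfl fun i _ => ?_
    rw [map_zsmul, zsmul_eq_mul]
    push_cast
    rfl
  have hk : row k ∈ Λ := Submodule.subset_span ⟨k, rfl⟩
  rw [h1, ← hφ, hψ' ⟨row k, hk⟩]
  -- expand in the basis
  have hgen : ∀ w : Λ, A.valuation ((ψ₀ w : L) - φ (w : ι → ℤ)) < 1 := by
    intro w
    have hw : w = ∑ j, e.repr w j • e j := (e.sum_repr w).symm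
    have e1 : (ψ₀ w : L) = ∑ j, (e.repr w j : L) * b j := by
      conv_lhs => rw [hw]
      rw [map_sum, AddSubmonoidClass.coe_finsetSum]
      refine Finset.sum_congr rfl fun j _ => ?_
      rw [map_zsmul, Module.Basis.constr_basis, zsmul_eq_mul]
      push_cast
      rfl
    have e2 : φ (w : ι → ℤ) = ∑ j, (e.repr w j : L) * φ (e j) := by
      conv_lhs => rw [hw]
      rw [AddSubmonoidClass.coe_finsetSum, map_sum]
      refine Finset.sum_congr rfl fun j _ => ?_
      rw [Submodule.coe_smul, map_zsmul, zsmul_eq_mul]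
    rw [e1, e2, ← Finset.sum_sub_distrib]
    refine Valuation.map_sum_lt _ one_ne_zero fun j _ => ?_
    rw [← mul_sub, map_mul]
    have h2 : A.valuation ((e.repr w j : ℤ) : L) ≤ 1 :=
      (A.valuation_le_one_iff _).mpr (intCast_mem A _)
    exact mul_lt_one_of_nonneg_of_lt_one_right h2 zero_le (hb j)
  exact hgen ⟨row k, hk⟩

/-- **lattice lemma.**  `P = ∑_{J ∈ s} a_J J`, rows `r_k = (J.coeff k)_{J ∈ s} ∈ ℤ^s`, `Λ = span_ℤ (r_k)` is free with basis
`(e_j)`; `φ : ℤ^s → ℚ̄`, `φ(δ_J) = a_J` maps `Λ` into `A`.  Choose `b_j ∈ E ∩ A`, `b_j ≡ φ(e_j)`; the map `Λ → E`, `e_j ↦ b_j`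
extends to `ℤ^s → E` since `E` is divisible (`Module.Baer.of_divisible`, `Module.Baer.extension_property`), giving `a'_J`. -/
theorem exists_lift_PH (hres : ∀ cb : kk A, ∃ c ∈ EH H, CRed A c cb) {P : LaurentSeries Qb}
    (hP : P ∈ PH ⊥ M) (y : LaurentSeries A) (hy : coeffMap A.subtype y = P) :
    ∃ P' ∈ PH H M, ∃ y' : LaurentSeries A, coeffMap A.subtype y' = P' ∧
      coeffMap (IsLocalRing.residue A) y' = coeffMap (IsLocalRing.residue A) y := by
  classical
  obtain ⟨s, a, hsJ, -, rfl⟩ := mem_PH_iff.mp hP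
  have hcoeff : ∀ (a' : LaurentSeries ℤ → Qb) (k : ℤ),
      (∑ J ∈ s, HahnSeries.C (a' J) * intS Qb J).coeff k
        = ∑ J : s, (((J : LaurentSeries ℤ).coeff k : ℤ) : Qb) * a' J := by
    intro a' k
    rw [HahnSeries.coeff_sum, ← Finset.sum_coe_sort s]
    refine Finset.sum_congr rfl fun J _ => ?_
    rw [HahnSeries.C_mul_eq_smul, HahnSeries.coeff_smul, coeffMap_coeff, smul_eq_mul, mul_comm]
    rfl
  have hyk : ∀ k, ((y.coeff k : A) : Qb) = (∑ J ∈ s, HahnSeries.C (a J) * intS Qb J).coeff k := by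
    intro k
    rw [← hy, coeffMap_coeff]
    rfl
  have hres' : ∀ c ∈ A, ∃ c' ∈ (EH H).toSubfield, A.valuation (c' - c) < 1 := by
    intro c hc
    obtain ⟨c', hc'E, hc'A, hc'⟩ := hres (IsLocalRing.residue A ⟨c, hc⟩)
    refine ⟨c', hc'E, ?_⟩
    have h1 : (⟨c', hc'A⟩ - ⟨c, hc⟩ : A) ∈ IsLocalRing.maximalIdeal A := by
      rw [← IsLocalRing.residue_eq_zero_iff, map_sub, hc', sub_self]
    exact (A.valuation_lt_one_iff _).1 h1
  obtain ⟨a', ha'E, ha'⟩ := lattice_abs A (EH H).toSubfield hres' (fun J : s => a J)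
    (fun (k : ℤ) (J : s) => (J : LaurentSeries ℤ).coeff k)
    (fun k => by rw [← hcoeff a k, ← hyk k]; exact (y.coeff k).2)
  -- extend `a'` by zero
  let a'' : LaurentSeries ℤ → Qb := fun J => if h : J ∈ s then a' ⟨J, h⟩ else 0
  have ha'' : ∀ J : s, a'' J = a' J := fun J => by
    show (if h : (J : LaurentSeries ℤ) ∈ s then a' ⟨J, h⟩ else 0) = a' J
    rw [dif_pos J.2]
  set P' : LaurentSeries Qb := ∑ J ∈ s, HahnSeries.C (a'' J) * intS Qb J with hP'
  have hdiff : ∀ k, A.valuation (P'.coeff k - ((y.coeff k : A) : Qb)) < 1 := by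
    intro k
    rw [hyk k, hP', hcoeff a'' k, hcoeff a k]
    simp only [ha'']
    exact ha' k
  have hmemA : ∀ k, P'.coeff k ∈ A := by
    intro k
    have h1 : P'.coeff k = (P'.coeff k - ((y.coeff k : A) : Qb)) + ((y.coeff k : A) : Qb) := by ring
    rw [h1]
    exact A.add_mem _ _ ((A.valuation_le_one_iff _).1 (hdiff k).le) (y.coeff k).2
  obtain ⟨y', hy'⟩ := exists_int_of_coeff_mem A P' hmemA
  refine ⟨P', mem_PH_iff.mpr ⟨s, a'', hsJ, fun J hJ => ?_, rfl⟩, y', hy', ?_⟩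
  · rw [ha'' ⟨J, hJ⟩]; exact ha'E _
  · ext k
    rw [coeffMap_coeff, coeffMap_coeff, ← sub_eq_zero, ← map_sub, IsLocalRing.residue_eq_zero_iff,
      A.valuation_lt_one_iff]
    have h2 : ((y'.coeff k : A) : Qb) = P'.coeff k := by
      rw [← hy', coeffMap_coeff]
      rfl
    have h3 : ((y'.coeff k - y.coeff k : A) : Qb) = P'.coeff k - ((y.coeff k : A) : Qb) := by
      rw [← h2]; rfl
    rw [h3]
    exact hdiff k

end Fermat.Agent.DSC
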