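import Fermat.Agent.DSC.Defs

/-!
# DSC-B1 : the ring `PH H M` = `E`-span of `ℤ[j(q^d) : d ∣ M]`
-/

set_option autoImplicit false
noncomputable section

namespace Fermat.Agent.DSC

open ModularCurve HahnSeries Fermat.Agent.GR Fermat.Agent.GAL Fermat.Agent.ORD.P2

variable {M : ℕ} {H : Subgroup GQ}

/-! ## DSC-B1 : the ring `PH H M` -/

theorem galS_intS (τ : GQ) (J : LaurentSeries ℤ) : galS τ (intS Qb J) = intS Qb J := by
  ext k
  rw [galS_coeff, coeffMap_coeff]
  simp

theorem PolyRing_smul_eq (c : EH H) (P : LaurentSeries Qb) :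
    c • P = HahnSeries.C (c : Qb) * P := by
  rw [HahnSeries.C_mul_eq_smul]
  rfl

/-- (`GR.coeffEmb_qExpand_jq`, `jqd_mem_full`, `coeffEmb_mem_laurentBaseChange`-type lemmas; induction on the closure). -/
theorem intS_mem_FL {J : LaurentSeries ℤ} (hJ : J ∈ JZ M) : intS Qb J ∈ FL Qb M := by
  induction hJ using Subring.closure_induction with
  | mem x hx =>
    obtain ⟨d, hd0, hd, rfl⟩ := hx
    rw [← coeffEmb_qExpand_jq d]
    exact coeffEmb_mem_laurentBaseChange Qb (jqd_mem_full M hd)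
  | zero => rw [map_zero]; exact zero_mem _
  | one => rw [map_one]; exact one_mem _
  | add x y _ _ hx hy => rw [map_add]; exact add_mem hx hy
  | neg x _ hx => rw [map_neg]; exact neg_mem hx
  | mul x y _ _ hx hy => rw [map_mul]; exact mul_mem hx hy

theorem intS_mem_PH {J : LaurentSeries ℤ} (hJ : J ∈ JZ M) : intS Qb J ∈ PH H M :=
  Submodule.subset_span ⟨J, hJ, rfl⟩

theorem one_mem_PH : (1 : LaurentSeries Qb) ∈ PH H M := by
  have := intS_mem_PH (H := H) (M := M) (JZ M).one_mem
  rwa [map_one] at this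

theorem C_mul_mem_PH {c : Qb} (hc : c ∈ EH H) {P : LaurentSeries Qb} (hP : P ∈ PH H M) :
    HahnSeries.C c * P ∈ PH H M := by
  have := (PH H M).smul_mem (⟨c, hc⟩ : EH H) hP
  rwa [PolyRing_smul_eq] at this

theorem mul_mem_PH {P Q : LaurentSeries Qb} (hP : P ∈ PH H M) (hQ : Q ∈ PH H M) :
    P * Q ∈ PH H M := by
  induction hP using Submodule.span_induction with
  | mem x hx =>
    obtain ⟨a, ha, rfl⟩ := hx
    induction hQ using Submodule.span_induction with
    | mem y hy =>
      obtain ⟨b, hb, rfl⟩ := hy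
      rw [← map_mul]
      exact intS_mem_PH ((JZ M).mul_mem ha hb)
    | zero => rw [mul_zero]; exact (PH H M).zero_mem
    | add y z _ _ hy hz => rw [mul_add]; exact (PH H M).add_mem hy hz
    | smul r y _ hy =>
      rw [PolyRing_smul_eq, mul_left_comm]
      exact C_mul_mem_PH r.2 hy
  | zero => rw [zero_mul]; exact (PH H M).zero_mem
  | add y z _ _ hy hz => rw [add_mul]; exact (PH H M).add_mem hy hz
  | smul r y _ hy =>
    rw [PolyRing_smul_eq, mul_assoc]
    exact C_mul_mem_PH r.2 hy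

theorem PH_le_FH {P : LaurentSeries Qb} (hP : P ∈ PH H M) : P ∈ FH H M := by
  induction hP using Submodule.span_induction with
  | mem x hx =>
    obtain ⟨a, ha, rfl⟩ := hx
    exact ⟨intS_mem_FL ha, fun τ _ => galS_intS τ a⟩
  | zero => exact zero_mem _
  | add y z _ _ hy hz => exact add_mem hy hz
  | smul r y _ hy =>
    rw [PolyRing_smul_eq]
    exact mul_mem (C_mem_FH M r.2) hy

theorem PH_le_PSer {P : LaurentSeries Qb} (hP : P ∈ PH H M) : P ∈ PSer Qb := by
  induction hP using Submodule.span_induction with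
  | mem x hx =>
    obtain ⟨a, _, rfl⟩ := hx
    exact intS_mem_PSer a
  | zero => exact zero_mem _
  | add y z _ _ hy hz => exact add_mem hy hz
  | smul r y _ hy => exact (PSer Qb).smul_mem (r : Qb) hy

theorem mem_EH_bot (c : Qb) : c ∈ EH ⊥ := mem_EH.mpr fun τ hτ => by
  rw [Subgroup.mem_bot.mp hτ]; rfl

theorem PH_le_bot {P : LaurentSeries Qb} (hP : P ∈ PH H M) : P ∈ PH ⊥ M := by
  induction hP using Submodule.span_induction with
  | mem x hx =>
    obtain ⟨a, ha, rfl⟩ := hx
    exact intS_mem_PH ha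
  | zero => exact zero_mem _
  | add y z _ _ hy hz => exact add_mem hy hz
  | smul r y _ hy =>
    rw [PolyRing_smul_eq]
    exact C_mul_mem_PH (mem_EH_bot _) hy

theorem galS_mem_PH_bot (τ : GQ) {P : LaurentSeries Qb} (hP : P ∈ PH ⊥ M) :
    galS τ P ∈ PH ⊥ M := by
  induction hP using Submodule.span_induction with
  | mem x hx =>
    obtain ⟨a, ha, rfl⟩ := hx
    rw [galS_intS]
    exact intS_mem_PH ha
  | zero => rw [map_zero]; exact zero_mem _
  | add y z _ _ hy hz => rw [map_add]; exact add_mem hy hz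
  | smul r y _ hy =>
    rw [PolyRing_smul_eq, map_mul, galS_C]
    exact C_mul_mem_PH (mem_EH_bot _) hy

/-- explicit form of the elements of `PH H M`. -/
theorem mem_PH_iff {P : LaurentSeries Qb} : P ∈ PH H M ↔
    ∃ (s : Finset (LaurentSeries ℤ)) (a : LaurentSeries ℤ → Qb), (∀ J ∈ s, J ∈ JZ M) ∧
      (∀ J ∈ s, a J ∈ EH H) ∧ P = ∑ J ∈ s, HahnSeries.C (a J) * intS Qb J := by
  constructor
  · intro hP
    obtain ⟨l, hl, rfl⟩ := (Finsupp.mem_span_image_iff_linearCombination (EH H)).1 hP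
    refine ⟨l.support, fun J => (l J : Qb), fun J hJ => hl hJ, fun J _ => (l J).2, ?_⟩
    rw [Finsupp.linearCombination_apply, Finsupp.sum]
    exact Finset.sum_congr rfl fun J _ => PolyRing_smul_eq _ _
  · rintro ⟨s, a, h1, h2, rfl⟩
    exact Submodule.sum_mem _ fun J hJ => C_mul_mem_PH (h2 J hJ) (intS_mem_PH (h1 J hJ))

end Fermat.Agent.DSC
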