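import Fermat.Agent.DSC.PolyRing

/-!
# DSC-B3 : Galois descent of the span (minimal support)
-/

set_option autoImplicit false
noncomputable section

namespace Fermat.Agent.DSC

open ModularCurve HahnSeries Fermat.Agent.GR Fermat.Agent.GAL Fermat.Agent.ORD.P2

variable {M : ℕ} {H : Subgroup GQ}

/-! ## DSC-B3 : descent -/

/-- **descent of the span** (minimal support): take a representation `y = ∑_{J ∈ s} a_J J` with `#s` minimal
(all `a_J ≠ 0`).  For `τ ∈ H`, `r = τ a - a` is a linear relation between the `J ∈ s`; if `r_{J₀} ≠ 0`, then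
`a - (a_{J₀} / r_{J₀}) r` represents `y` with smaller support.  So `τ a = a`. -/
theorem mem_PH_of_fixed {y : LaurentSeries Qb} (hy : y ∈ PH ⊥ M) (hfix : ∀ τ ∈ H, galS τ y = y) :
    y ∈ PH H M := by
  classical
  have hex : ∃ n : ℕ, ∃ (s : Finset (LaurentSeries ℤ)) (a : LaurentSeries ℤ → Qb), s.card = n ∧
      (∀ J ∈ s, J ∈ JZ M) ∧ y = ∑ J ∈ s, HahnSeries.C (a J) * intS Qb J := by
    obtain ⟨s, a, hs, -, hya⟩ := mem_PH_iff.mp hy
    exact ⟨s.card, s, a, rfl, hs, hya⟩
  obtain ⟨s, a, hcard, hs, hya⟩ := Nat.find_spec hex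
  have hmin := fun m (hm : m < Nat.find hex) => Nat.find_min hex hm
  refine mem_PH_iff.mpr ⟨s, a, hs, fun J₀ hJ₀ => mem_EH.mpr fun τ hτ => ?_, hya⟩
  by_contra hne
  set r : LaurentSeries ℤ → Qb := fun J => τ (a J) - a J with hr
  have hr0 : r J₀ ≠ 0 := sub_ne_zero.mpr hne
  have hrel : ∑ J ∈ s, HahnSeries.C (r J) * intS Qb J = 0 := by
    have h1 : galS τ y = ∑ J ∈ s, HahnSeries.C (τ (a J)) * intS Qb J := by
      conv_lhs => rw [hya]
      rw [map_sum]
      refine Finset.sum_congr rfl fun J _ => ?_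
      rw [map_mul, galS_C, galS_intS]
    have h2 : galS τ y - y = 0 := by rw [hfix τ hτ, sub_self]
    rw [← h2, h1]
    conv_rhs => rw [hya]
    rw [← Finset.sum_sub_distrib]
    refine Finset.sum_congr rfl fun J _ => ?_
    rw [hr, map_sub, sub_mul]
  set a' : LaurentSeries ℤ → Qb := fun J => a J - (a J₀ / r J₀) * r J with ha'
  have hya' : y = ∑ J ∈ s, HahnSeries.C (a' J) * intS Qb J := by
    have h3 : ∑ J ∈ s, HahnSeries.C (a' J) * intS Qb J
        = ∑ J ∈ s, HahnSeries.C (a J) * intS Qb J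
          - HahnSeries.C (a J₀ / r J₀) * ∑ J ∈ s, HahnSeries.C (r J) * intS Qb J := by
      rw [Finset.mul_sum, ← Finset.sum_sub_distrib]
      refine Finset.sum_congr rfl fun J _ => ?_
      rw [ha', map_sub, map_mul, sub_mul, mul_assoc]
    rw [h3, hrel, mul_zero, sub_zero, ← hya]
  have ha'0 : a' J₀ = 0 := by
    rw [ha']
    show a J₀ - a J₀ / r J₀ * r J₀ = 0
    rw [div_mul_cancel₀ _ hr0, sub_self]
  have hya'' : y = ∑ J ∈ s.erase J₀, HahnSeries.C (a' J) * intS Qb J := by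
    rw [hya', ← Finset.add_sum_erase s _ hJ₀, ha'0, map_zero, zero_mul, zero_add]
  have hlt : (s.erase J₀).card < Nat.find hex := by
    rw [← hcard]
    exact Finset.card_erase_lt_of_mem hJ₀
  exact hmin _ hlt ⟨s.erase J₀, a', rfl, fun J hJ => hs J (Finset.mem_of_mem_erase hJ), hya''⟩

end Fermat.Agent.DSC
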